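import Mathlib
import Fermat.Prelude.Def_ModularCurve_X0
import Fermat.Prelude.Def_ModularCurve_LaurentCoeff
import Fermat.Prelude.Thm_ModularCurve_coeffMap_qExpand

/-!
# Programme II (S40), kernel K8, q-series base file (helper15): `θ = q d/dq`, `U_ℓ`, `T_ℓ` (weight 2)
on Laurent series over a commutative ring, and their compatibility with coefficientwise maps

`R` a commutative ring, `LaurentSeries R = HahnSeries ℤ R = R((q))`, `V_ℓ = ModularCurve.qExpand R ℓ`
(the Prelude's `q ↦ q^ℓ`), `coeffMap φ` the Prelude's coefficientwise map.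

* `theta`, `thetaHom`, `theta_coeff : (theta y).coeff n = (n : R) * y.coeff n`, `theta_add`,
  `theta_sub`, `theta_neg`, `theta_smul`, `theta_C`, `theta_one`, `theta_mul` (Leibniz), `theta_sum`,
  `theta_pow`, `theta_pow_char` (`θ (h^p) = 0` in characteristic `p`),
  `theta_qExpand : theta (qExpand R m y) = (m : R) • qExpand R m (theta y)`,
  `coeffMap_theta : coeffMap φ (theta y) = theta (coeffMap φ y)`;
* `Uop ℓ`, `Uop_coeff : (Uop ℓ y).coeff n = y.coeff (ℓ * n)`, `Uop_add`, `Uop_smul`, `Uop_zero`,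
  `Uop_qExpand : Uop ℓ (qExpand R ℓ y) = y`, `coeffMap_Uop`;
* `T2 ℓ y := Uop ℓ y + (ℓ : R) • qExpand R ℓ y`, `T2_coeff`, `T2_add`, `T2_smul`, `T2_zero`,
  `T2Hom`, **`coeffMap_T2`** (QH: the formal Hecke operator commutes with every coefficientwise
  ring homomorphism, in particular with the Gauss residue map);
* `theta_eq_zero_iff`, `theta_eq_zero_iff_exists_qExpand` (characteristic `p`).
-/

set_option autoImplicit false
set_option linter.unusedSectionVars false
set_option linter.style.haveILetI false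

noncomputable section

namespace Fermat.Agent.FF4.K8Series

open HahnSeries ModularCurve

variable {R : Type*} [CommRing R]

/-! ### `θ = q d/dq` -/

/-- `θ = q d/dq` on Laurent series, coefficientwise. -/
def theta (f : LaurentSeries R) : LaurentSeries R where
  coeff n := (n : R) * f.coeff n
  isPWO_support' := f.isPWO_support.mono fun n hn => by
    rw [Function.mem_support] at hn
    rw [HahnSeries.mem_support]
    exact fun h => hn (by rw [h, mul_zero])

@[simp] theorem theta_coeff (f : LaurentSeries R) (n : ℤ) :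
    (theta f).coeff n = (n : R) * f.coeff n := rfl

@[simp] theorem theta_zero : theta (0 : LaurentSeries R) = 0 := by
  ext n; simp

theorem theta_add (f g : LaurentSeries R) : theta (f + g) = theta f + theta g := by
  ext n; simp [mul_add]

theorem theta_neg (f : LaurentSeries R) : theta (-f) = -theta f := by
  ext n; simp

theorem theta_sub (f g : LaurentSeries R) : theta (f - g) = theta f - theta g := by
  rw [sub_eq_add_neg, theta_add, theta_neg, ← sub_eq_add_neg]

theorem theta_smul (c : R) (f : LaurentSeries R) : theta (c • f) = c • theta f := by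
  ext n
  simp only [theta_coeff, HahnSeries.coeff_smul, smul_eq_mul]
  ring

theorem theta_C (c : R) : theta (HahnSeries.C c : LaurentSeries R) = 0 := by
  ext n
  rw [theta_coeff, HahnSeries.coeff_zero]
  by_cases hn : n = 0
  · subst hn; simp
  · rw [HahnSeries.C_apply, HahnSeries.coeff_single_of_ne hn, mul_zero]

theorem theta_one : theta (1 : LaurentSeries R) = 0 := by
  have := theta_C (R := R) 1
  rwa [map_one] at this

/-- Leibniz rule for `θ`. -/
theorem theta_mul (f g : LaurentSeries R) : theta (f * g) = theta f * g + f * theta g := by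
  ext n
  rw [theta_coeff, HahnSeries.coeff_add, HahnSeries.coeff_mul, HahnSeries.coeff_mul,
    HahnSeries.coeff_mul, Finset.mul_sum]
  have h1 : Finset.antidiagonal (theta f).isPWO_support g.isPWO_support n ⊆
      Finset.antidiagonal f.isPWO_support g.isPWO_support n := by
    intro ij hij
    rw [Finset.mem_antidiagonal] at hij ⊢
    refine ⟨?_, hij.2.1, hij.2.2⟩
    have := hij.1
    rw [HahnSeries.mem_support, theta_coeff] at this
    rw [HahnSeries.mem_support]
    exact fun h => this (by rw [h, mul_zero])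
  have h2 : Finset.antidiagonal f.isPWO_support (theta g).isPWO_support n ⊆
      Finset.antidiagonal f.isPWO_support g.isPWO_support n := by
    intro ij hij
    rw [Finset.mem_antidiagonal] at hij ⊢
    refine ⟨hij.1, ?_, hij.2.2⟩
    have := hij.2.1
    rw [HahnSeries.mem_support, theta_coeff] at this
    rw [HahnSeries.mem_support]
    exact fun h => this (by rw [h, mul_zero])
  rw [Finset.sum_subset h1, Finset.sum_subset h2, ← Finset.sum_add_distrib]
  · refine Finset.sum_congr rfl fun ij hij => ?_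
    rw [Finset.mem_antidiagonal] at hij
    rw [theta_coeff, theta_coeff, ← hij.2.2]
    push_cast
    ring
  · intro ij hij hnot
    rw [Finset.mem_antidiagonal] at hij hnot
    have : (theta g).coeff ij.2 = 0 := by
      by_contra h
      exact hnot ⟨hij.1, h, hij.2.2⟩
    rw [this, mul_zero]
  · intro ij hij hnot
    rw [Finset.mem_antidiagonal] at hij hnot
    have : (theta f).coeff ij.1 = 0 := by
      by_contra h
      exact hnot ⟨h, hij.2.1, hij.2.2⟩
    rw [this, zero_mul]

/-- `θ` as an additive homomorphism. -/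
def thetaHom : LaurentSeries R →+ LaurentSeries R where
  toFun := theta
  map_zero' := theta_zero
  map_add' := theta_add

@[simp] theorem thetaHom_apply (f : LaurentSeries R) : thetaHom f = theta f := rfl

theorem theta_sum {ι : Type*} (s : Finset ι) (f : ι → LaurentSeries R) :
    theta (∑ i ∈ s, f i) = ∑ i ∈ s, theta (f i) :=
  map_sum (thetaHom (R := R)) f s

theorem theta_pow (f : LaurentSeries R) (n : ℕ) :
    theta (f ^ (n + 1)) = ((n + 1 : ℕ) : LaurentSeries R) * f ^ n * theta f := by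
  induction n with
  | zero => simp
  | succ n ih =>
    rw [pow_succ, theta_mul, ih]
    push_cast
    ring

/-- In characteristic `p`, `θ` kills `p`-th powers. -/
theorem theta_pow_char (p : ℕ) [hp : Fact p.Prime] [CharP R p] (h : LaurentSeries R) :
    theta (h ^ p) = 0 := by
  obtain ⟨n, hn⟩ : ∃ n, p = n + 1 := ⟨p - 1, (Nat.succ_pred_eq_of_pos hp.out.pos).symm⟩
  have hcast : ((n + 1 : ℕ) : LaurentSeries R) = 0 := by
    rw [← hn]
    have h0 : ((p : ℕ) : R) = 0 := CharP.cast_eq_zero R p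
    have : ((p : ℕ) : LaurentSeries R) = HahnSeries.C ((p : ℕ) : R) := by
      rw [map_natCast]
    rw [this, h0, map_zero]
  rw [hn, theta_pow, hcast, zero_mul, zero_mul]

theorem theta_qExpand (m : ℕ) [NeZero m] (f : LaurentSeries R) :
    theta (qExpand R m f) = (m : R) • qExpand R m (theta f) := by
  ext k
  rw [theta_coeff, HahnSeries.coeff_smul, smul_eq_mul]
  by_cases hk : (m : ℤ) ∣ k
  · obtain ⟨j, rfl⟩ := hk
    rw [qExpand_coeff_mul, qExpand_coeff_mul, theta_coeff]
    push_cast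
    ring
  · rw [qExpand_coeff_of_not_dvd m f hk, qExpand_coeff_of_not_dvd m (theta f) hk, mul_zero,
      mul_zero]

/-- `θ` commutes with coefficientwise ring homomorphisms. -/
theorem coeffMap_theta {S : Type*} [CommRing S] (φ : R →+* S) (f : LaurentSeries R) :
    coeffMap φ (theta f) = theta (coeffMap φ f) := by
  ext n
  rw [coeffMap_coeff, theta_coeff, theta_coeff, coeffMap_coeff, map_mul, map_intCast]

/-! ### The operators `U_ℓ`, `V_ℓ = qExpand ℓ` and `T_ℓ` (weight 2) on q-series -/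

/-- `U_ℓ` on Laurent series: `(U f)_n = f_{ℓ n}`. -/
def Uop (ℓ : ℕ) [NeZero ℓ] (f : LaurentSeries R) : LaurentSeries R :=
  HahnSeries.ofSuppBddBelow (fun n : ℤ => f.coeff ((ℓ : ℤ) * n)) (by
    by_cases hf : f = 0
    · subst hf
      refine ⟨0, fun n hn => ?_⟩
      simp at hn
    · refine ⟨min f.order 0, fun n hn => ?_⟩
      rw [Function.mem_support] at hn
      have h1 : f.order ≤ (ℓ : ℤ) * n := HahnSeries.order_le_of_coeff_ne_zero hn
      have hℓ : (1 : ℤ) ≤ (ℓ : ℤ) := by
        exact_mod_cast Nat.one_le_iff_ne_zero.mpr (NeZero.ne ℓ)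
      rcases le_or_gt 0 n with h0 | h0
      · exact (min_le_right _ _).trans h0
      · have : (ℓ : ℤ) * n ≤ n := by nlinarith
        exact (min_le_left _ _).trans (h1.trans this))

@[simp] theorem Uop_coeff (ℓ : ℕ) [NeZero ℓ] (f : LaurentSeries R) (n : ℤ) :
    (Uop ℓ f).coeff n = f.coeff ((ℓ : ℤ) * n) := by
  unfold Uop
  rw [HahnSeries.coeff_ofSuppBddBelow]

theorem Uop_add (ℓ : ℕ) [NeZero ℓ] (f g : LaurentSeries R) :
    Uop ℓ (f + g) = Uop ℓ f + Uop ℓ g := by
  ext n; simp

theorem Uop_smul (ℓ : ℕ) [NeZero ℓ] (c : R) (f : LaurentSeries R) :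
    Uop ℓ (c • f) = c • Uop ℓ f := by
  ext n; simp

theorem Uop_zero (ℓ : ℕ) [NeZero ℓ] : Uop ℓ (0 : LaurentSeries R) = 0 := by
  ext n; simp

/-- `U_ℓ V_ℓ = id`. -/
theorem Uop_qExpand (ℓ : ℕ) [NeZero ℓ] (f : LaurentSeries R) : Uop ℓ (qExpand R ℓ f) = f := by
  ext n
  rw [Uop_coeff, qExpand_coeff_mul]

theorem coeffMap_Uop {S : Type*} [CommRing S] (φ : R →+* S) (ℓ : ℕ) [NeZero ℓ]
    (f : LaurentSeries R) : coeffMap φ (Uop ℓ f) = Uop ℓ (coeffMap φ f) := by
  ext n
  rw [coeffMap_coeff, Uop_coeff, Uop_coeff, coeffMap_coeff]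

/-- The weight-2 Hecke operator `T_ℓ = U_ℓ + ℓ V_ℓ` on q-series. -/
def T2 (ℓ : ℕ) [NeZero ℓ] (f : LaurentSeries R) : LaurentSeries R :=
  Uop ℓ f + (ℓ : R) • qExpand R ℓ f

theorem T2_coeff (ℓ : ℕ) [NeZero ℓ] (f : LaurentSeries R) (n : ℤ) :
    (T2 ℓ f).coeff n = f.coeff ((ℓ : ℤ) * n) + (ℓ : R) * (qExpand R ℓ f).coeff n := by
  unfold T2
  rw [HahnSeries.coeff_add, Uop_coeff, HahnSeries.coeff_smul, smul_eq_mul]

/-- The classical coefficient formula at a multiple of `ℓ`:
`a_{ℓ m}(T_ℓ f) = a_{ℓ² m}(f) + ℓ a_m(f)`. -/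
theorem T2_coeff_mul (ℓ : ℕ) [NeZero ℓ] (f : LaurentSeries R) (m : ℤ) :
    (T2 ℓ f).coeff ((ℓ : ℤ) * m) = f.coeff ((ℓ : ℤ) * ((ℓ : ℤ) * m)) + (ℓ : R) * f.coeff m := by
  rw [T2_coeff, qExpand_coeff_mul]

/-- The classical coefficient formula away from the multiples of `ℓ`:
`a_n(T_ℓ f) = a_{ℓ n}(f)`. -/
theorem T2_coeff_of_not_dvd (ℓ : ℕ) [NeZero ℓ] (f : LaurentSeries R) {n : ℤ}
    (hn : ¬ (ℓ : ℤ) ∣ n) : (T2 ℓ f).coeff n = f.coeff ((ℓ : ℤ) * n) := by
  rw [T2_coeff, qExpand_coeff_of_not_dvd ℓ f hn, mul_zero, add_zero]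

theorem T2_add (ℓ : ℕ) [NeZero ℓ] (f g : LaurentSeries R) : T2 ℓ (f + g) = T2 ℓ f + T2 ℓ g := by
  unfold T2
  rw [Uop_add, map_add, smul_add]
  abel

theorem T2_zero (ℓ : ℕ) [NeZero ℓ] : T2 ℓ (0 : LaurentSeries R) = 0 := by
  unfold T2
  rw [Uop_zero, map_zero, smul_zero, add_zero]

theorem T2_smul (ℓ : ℕ) [NeZero ℓ] (c : R) (f : LaurentSeries R) : T2 ℓ (c • f) = c • T2 ℓ f := by
  ext n
  rw [T2_coeff, HahnSeries.coeff_smul, HahnSeries.coeff_smul, T2_coeff]
  by_cases hn : (ℓ : ℤ) ∣ n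
  · obtain ⟨m, rfl⟩ := hn
    rw [qExpand_coeff_mul, qExpand_coeff_mul, HahnSeries.coeff_smul, smul_eq_mul, smul_eq_mul,
      smul_eq_mul]
    ring
  · rw [qExpand_coeff_of_not_dvd ℓ _ hn, qExpand_coeff_of_not_dvd ℓ _ hn, smul_eq_mul,
      smul_eq_mul]
    ring

/-- `T_ℓ` as an additive endomorphism of `R((q))`. -/
def T2Hom (ℓ : ℕ) [NeZero ℓ] : LaurentSeries R →+ LaurentSeries R where
  toFun := T2 ℓ
  map_zero' := T2_zero ℓ
  map_add' := T2_add ℓ

@[simp] theorem T2Hom_apply (ℓ : ℕ) [NeZero ℓ] (f : LaurentSeries R) : T2Hom ℓ f = T2 ℓ f := rfl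

/-- **(QH)** The formal Hecke operator commutes with coefficientwise ring homomorphisms (for
instance with the Gauss residue map `A((q)) → k((q))` and with `A((q)) → ℚ̄((q))`). -/
theorem coeffMap_T2 {S : Type*} [CommRing S] (φ : R →+* S) (ℓ : ℕ) [NeZero ℓ]
    (f : LaurentSeries R) : coeffMap φ (T2 ℓ f) = T2 ℓ (coeffMap φ f) := by
  ext n
  rw [coeffMap_coeff, T2_coeff, T2_coeff, map_add, map_mul, map_natCast, coeffMap_coeff,
    ← coeffMap_coeff φ (qExpand R ℓ f), coeffMap_qExpand]

/-! ### `θ f = 0` in characteristic `p` -/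

/-- In characteristic `p` (domain): `θ f = 0` iff `f` is a series in `q^p`. -/
theorem theta_eq_zero_iff (p : ℕ) [Fact p.Prime] [CharP R p] [IsDomain R] (f : LaurentSeries R) :
    theta f = 0 ↔ ∀ n : ℤ, ¬ (p : ℤ) ∣ n → f.coeff n = 0 := by
  constructor
  · intro h n hn
    have h1 : (theta f).coeff n = 0 := by rw [h, HahnSeries.coeff_zero]
    rw [theta_coeff] at h1
    rcases mul_eq_zero.mp h1 with h2 | h2
    · exact absurd ((CharP.intCast_eq_zero_iff R p n).mp h2) hn
    · exact h2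
  · intro h
    ext n
    rw [theta_coeff, HahnSeries.coeff_zero]
    by_cases hn : (p : ℤ) ∣ n
    · rw [(CharP.intCast_eq_zero_iff R p n).mpr hn, zero_mul]
    · rw [h n hn, mul_zero]

/-- In characteristic `p` (domain): `θ f = 0` iff `f = h(q^p)` for some `h`. -/
theorem theta_eq_zero_iff_exists_qExpand (p : ℕ) [hp : Fact p.Prime] [CharP R p] [IsDomain R]
    (f : LaurentSeries R) :
    haveI : NeZero p := ⟨hp.out.ne_zero⟩
    theta f = 0 ↔ ∃ h : LaurentSeries R, f = qExpand R p h := by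
  haveI : NeZero p := ⟨hp.out.ne_zero⟩
  rw [theta_eq_zero_iff p]
  constructor
  · intro h
    refine ⟨Uop p f, ?_⟩
    ext n
    by_cases hn : (p : ℤ) ∣ n
    · obtain ⟨m, rfl⟩ := hn
      rw [qExpand_coeff_mul, Uop_coeff]
    · rw [h n hn, qExpand_coeff_of_not_dvd p _ hn]
  · rintro ⟨h, rfl⟩ n hn
    exact qExpand_coeff_of_not_dvd p h hn

end Fermat.Agent.FF4.K8Series
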