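import Mathlib
import Fermat.Agent.FF4.K8Series.Theta

/-!
# Programme II (S40), kernel K8, q-series leaf, part 3 (helper15):
polynomials in the formal Hecke operators `T_ℓ = U_ℓ + ℓ V_ℓ` on `R((q))`

In the vocabulary of the landed `BR2/NewQuotient.lean` (`liftT`, `liftTLam`): polynomials in the
Hecke operators are elements of `FreeAlgebra ℤ ι`, `ι` an index type of primes
(`ι = Jac.PrimesAway S` there, `e = Subtype.val`).

* `T2End ℓ : Module.End ℤ (LaurentSeries R)`, `T2End_apply`;
* `liftT2 e : FreeAlgebra ℤ ι →ₐ[ℤ] Module.End ℤ (LaurentSeries R)` for `e : ι → Nat.Primes`,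
  `liftT2_ι`;
* **`coeffMap_liftT2`** (QH, polynomial form): `coeffMap φ (liftT2 e t y) = liftT2 e t (coeffMap φ y)`;
* `liftT2_eq_zero_of_coeffMap` : if `φ` is injective and `liftT2 e t (coeffMap φ y) = 0` then
  `liftT2 e t y = 0`; `liftT2_coeffMap_eq_zero` : then also `liftT2 e t (coeffMap ψ y) = 0` for every
  other `ψ` (from `ℚ̄((q))` down to `A((q))` and on to `k((q))`);
* **`liftT2_eigen`** : if `T2 (e i) b = a i • b` for all `i` then
  `liftT2 e t b = (FreeAlgebra.lift ℤ a t) • b`.
-/

set_option autoImplicit false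
set_option linter.unusedSectionVars false
set_option linter.style.haveILetI false

noncomputable section

namespace Fermat.Agent.FF4.K8Series

open HahnSeries ModularCurve

variable {R : Type*} [CommRing R]

/-- `T_ℓ = U_ℓ + ℓ V_ℓ` as a `ℤ`-linear endomorphism of `R((q))`. -/
def T2End (ℓ : ℕ) [NeZero ℓ] : Module.End ℤ (LaurentSeries R) :=
  (T2Hom (R := R) ℓ).toIntLinearMap

@[simp] theorem T2End_apply (ℓ : ℕ) [NeZero ℓ] (y : LaurentSeries R) :
    T2End ℓ y = T2 ℓ y := rfl

variable {ι : Type*} (e : ι → Nat.Primes)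

/-- the family `i ↦ T_{e i}` -/
def T2fam (i : ι) : Module.End ℤ (LaurentSeries R) :=
  haveI : NeZero ((e i : Nat.Primes) : ℕ) := ⟨(e i).2.ne_zero⟩
  T2End ((e i : Nat.Primes) : ℕ)

theorem T2fam_apply (i : ι) (y : LaurentSeries R) :
    T2fam (R := R) e i y =
      (haveI : NeZero ((e i : Nat.Primes) : ℕ) := ⟨(e i).2.ne_zero⟩; T2 ((e i : Nat.Primes) : ℕ) y) :=
  rfl

/-- evaluation of a noncommutative polynomial at the formal Hecke operators `T_{e i}` -/
def liftT2 : FreeAlgebra ℤ ι →ₐ[ℤ] Module.End ℤ (LaurentSeries R) :=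
  FreeAlgebra.lift ℤ (T2fam (R := R) e)

theorem liftT2_ι (i : ι) : liftT2 (R := R) e (FreeAlgebra.ι ℤ i) = T2fam e i := by
  unfold liftT2
  rw [FreeAlgebra.lift_ι_apply]

/-- **(QH, polynomial form)** polynomials in the formal Hecke operators commute with coefficientwise
ring homomorphisms. -/
theorem coeffMap_liftT2 {S : Type*} [CommRing S] (φ : R →+* S) (t : FreeAlgebra ℤ ι)
    (y : LaurentSeries R) :
    coeffMap φ (liftT2 e t y) = liftT2 e t (coeffMap φ y) := by
  induction t using FreeAlgebra.induction generalizing y with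
  | grade0 n =>
    rw [AlgHom.commutes, AlgHom.commutes, Module.algebraMap_end_apply,
      Module.algebraMap_end_apply, map_zsmul]
  | grade1 i =>
    rw [liftT2_ι, liftT2_ι, T2fam_apply, T2fam_apply]
    haveI : NeZero ((e i : Nat.Primes) : ℕ) := ⟨(e i).2.ne_zero⟩
    exact coeffMap_T2 φ _ y
  | mul a b ha hb =>
    rw [map_mul, map_mul, Module.End.mul_apply, Module.End.mul_apply, ha, hb]
  | add a b ha hb =>
    rw [map_add, map_add, LinearMap.add_apply, LinearMap.add_apply, map_add, ha, hb]

/-- descent along an injective coefficient map -/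
theorem liftT2_eq_zero_of_coeffMap {S : Type*} [CommRing S] (φ : R →+* S)
    (hφ : Function.Injective φ) (t : FreeAlgebra ℤ ι) (y : LaurentSeries R)
    (h : liftT2 e t (coeffMap φ y) = 0) : liftT2 e t y = 0 := by
  rw [← coeffMap_liftT2] at h
  ext n
  have := congrArg (fun s : LaurentSeries S => s.coeff n) h
  simp only [coeffMap_coeff, HahnSeries.coeff_zero] at this
  rw [HahnSeries.coeff_zero]
  exact hφ (this.trans (map_zero φ).symm)

/-- from `ℚ̄((q))` down to `A((q))` and on to `k((q))`: if `t` kills `ι y` (`ι` injective) it kills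
every other coefficientwise image of `y`. -/
theorem liftT2_coeffMap_eq_zero {S S' : Type*} [CommRing S] [CommRing S'] (φ : R →+* S)
    (hφ : Function.Injective φ) (ψ : R →+* S') (t : FreeAlgebra ℤ ι) (y : LaurentSeries R)
    (h : liftT2 e t (coeffMap φ y) = 0) : liftT2 e t (coeffMap ψ y) = 0 := by
  rw [← coeffMap_liftT2, liftT2_eq_zero_of_coeffMap e φ hφ t y h, map_zero]

/-- polynomials in the formal Hecke operators are `R`-linear -/
theorem liftT2_smul (c : R) (t : FreeAlgebra ℤ ι) (y : LaurentSeries R) :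
    liftT2 e t (c • y) = c • liftT2 e t y := by
  induction t using FreeAlgebra.induction generalizing y with
  | grade0 n =>
    rw [AlgHom.commutes, Module.algebraMap_end_apply, Module.algebraMap_end_apply, smul_comm]
  | grade1 i =>
    rw [liftT2_ι, T2fam_apply, T2fam_apply]
    haveI : NeZero ((e i : Nat.Primes) : ℕ) := ⟨(e i).2.ne_zero⟩
    exact T2_smul _ c y
  | mul a b ha hb =>
    rw [map_mul, Module.End.mul_apply, Module.End.mul_apply, hb, ha]
  | add a b ha hb =>
    rw [map_add, LinearMap.add_apply, LinearMap.add_apply, ha, hb, smul_add]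

/-- **Eigen-series.** If `b` is an eigenvector of every `T_{e i}` with eigenvalue `a i`, then every
polynomial `t` in the `T_{e i}` acts on `b` through the character `FreeAlgebra.lift ℤ a`. -/
theorem liftT2_eigen (a : ι → R) (b : LaurentSeries R)
    (h : ∀ i, (haveI : NeZero ((e i : Nat.Primes) : ℕ) := ⟨(e i).2.ne_zero⟩;
      T2 ((e i : Nat.Primes) : ℕ) b) = a i • b)
    (t : FreeAlgebra ℤ ι) :
    liftT2 e t b = (FreeAlgebra.lift ℤ a t) • b := by
  induction t using FreeAlgebra.induction with
  | grade0 n =>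
    rw [AlgHom.commutes, AlgHom.commutes, Module.algebraMap_end_apply, algebraMap_int_eq,
      eq_intCast, Int.cast_smul_eq_zsmul R n b]
  | grade1 i =>
    rw [liftT2_ι, FreeAlgebra.lift_ι_apply, T2fam_apply]
    exact h i
  | mul x y hx hy =>
    rw [map_mul, map_mul, Module.End.mul_apply, hy, liftT2_smul, hx, smul_smul, mul_comm]
  | add x y hx hy =>
    rw [map_add, map_add, LinearMap.add_apply, hx, hy, add_smul]

/-- **End game in q-series form.** `A → K` injective (e.g. `A ⊆ ℚ̄`), `A → k` a residue map to a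
field. If a nonzero eigen-series `b ∈ k((q))` (eigenvalues `a i`) is the reduction of an integral
series `y0 ∈ A((q))` whose image in `K((q))` is killed by `t`, then the character of `b` kills `t`:
`(FreeAlgebra.lift ℤ a) t = 0`. -/
theorem lift_eq_zero_of_eigen_of_reduction {A K k : Type*} [CommRing A] [CommRing K] [Field k]
    (ιA : A →+* K) (hι : Function.Injective ιA) (π : A →+* k) (y0 : LaurentSeries A)
    (a : ι → k)
    (hne : coeffMap π y0 ≠ 0)
    (heig : ∀ i, (haveI : NeZero ((e i : Nat.Primes) : ℕ) := ⟨(e i).2.ne_zero⟩;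
      T2 ((e i : Nat.Primes) : ℕ) (coeffMap π y0)) = a i • coeffMap π y0)
    (t : FreeAlgebra ℤ ι) (ht : liftT2 e t (coeffMap ιA y0) = 0) :
    FreeAlgebra.lift ℤ a t = 0 := by
  have h1 : liftT2 e t (coeffMap π y0) = 0 := liftT2_coeffMap_eq_zero e ιA hι π t y0 ht
  rw [liftT2_eigen e a _ heig t] at h1
  by_contra hc
  apply hne
  have := congrArg (fun s => (FreeAlgebra.lift ℤ a t)⁻¹ • s) h1
  simpa only [smul_smul, inv_mul_cancel₀ hc, one_smul, smul_zero] using this

end Fermat.Agent.FF4.K8Series
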