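import Mathlib
import Fermat.Agent.Igusa.Subst
import Fermat.Agent.FF4.K8Series.Theta

/-!
# Programme II (S40), kernel K8, q-series leaf (helper15):
the logarithmic derivative of the Hecke product formula is the weight-2 Hecke operator on q-series

`K` a field, `LaurentSeries K = K((q))`; `theta`, `Uop`, `T2` from `FF4/K8Series/Theta.lean`.

* `theta_scale` (`θ (f(c q)) = (θ f)(c q)`, `scale` of the landed `Igusa/Subst.lean`);
* `dlog f = θ f / f`: `dlog_mul`, `dlog_prod`, `dlog_pow`, `dlog_zpow`, `dlog_inv`, `dlog_qExpand`,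
  `dlog_scale`, `dlog_const_smul`, `dlog_pow_char`;
* `sum_scale_eq` : `∑_{b<ℓ} φ(ζ^b q) = ℓ • (U_ℓ φ)(q^ℓ)` for a primitive `ℓ`-th root of unity `ζ`;
* **`dlog_eq_T2_of_productFormula`** : if `g'(q^ℓ) = g(q^{ℓ²}) ∏_{b<ℓ} g(ζ^b q)` (the shape of
  `ES.ProductFormula`) and `ℓ ≠ 0` in `K`, then `dlog g' = T2 ℓ (dlog g)`;
* **`T2_dlog_eq_smul`** : if moreover `g' = c • g^a * w^p` in characteristic `p`, then
  `T2 ℓ (dlog g) = a • dlog g` : `dlog g` is a `T_ℓ`-eigen-series with eigenvalue `a`.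
-/

set_option autoImplicit false
set_option linter.unusedSectionVars false
set_option linter.style.haveILetI false

noncomputable section

namespace Fermat.Agent.FF4.K8Series

open HahnSeries ModularCurve Fermat.Agent.Igusa

variable {K : Type*} [Field K]

theorem theta_scale (c : Kˣ) (f : LaurentSeries K) : theta (scale c f) = scale c (theta f) := by
  ext k
  rw [theta_coeff, scale_coeff, scale_coeff, theta_coeff]
  ring

/-! ### The logarithmic derivative -/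

/-- `dlog f = θ f / f`. -/
def dlog (f : LaurentSeries K) : LaurentSeries K := theta f / f

theorem dlog_mul {f g : LaurentSeries K} (hf : f ≠ 0) (hg : g ≠ 0) :
    dlog (f * g) = dlog f + dlog g := by
  unfold dlog
  rw [theta_mul]
  field_simp

theorem dlog_one : dlog (1 : LaurentSeries K) = 0 := by
  unfold dlog
  rw [theta_one, zero_div]

theorem dlog_prod {ι : Type*} (s : Finset ι) (f : ι → LaurentSeries K) (hf : ∀ i ∈ s, f i ≠ 0) :
    dlog (∏ i ∈ s, f i) = ∑ i ∈ s, dlog (f i) := by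
  classical
  induction s using Finset.induction_on with
  | empty => simp [dlog_one]
  | insert a s ha ih =>
    rw [Finset.prod_insert ha, Finset.sum_insert ha,
      dlog_mul (hf a (Finset.mem_insert_self a s))
        (Finset.prod_ne_zero_iff.mpr fun i hi => hf i (Finset.mem_insert_of_mem hi)),
      ih fun i hi => hf i (Finset.mem_insert_of_mem hi)]

theorem dlog_pow {f : LaurentSeries K} (hf : f ≠ 0) (n : ℕ) :
    dlog (f ^ n) = (n : LaurentSeries K) * dlog f := by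
  induction n with
  | zero => simp [dlog_one]
  | succ n ih =>
    rw [pow_succ, dlog_mul (pow_ne_zero n hf) hf, ih]
    push_cast
    ring

theorem dlog_inv {f : LaurentSeries K} (hf : f ≠ 0) : dlog f⁻¹ = -dlog f := by
  have h := dlog_mul hf (inv_ne_zero hf)
  rw [mul_inv_cancel₀ hf, dlog_one] at h
  exact eq_neg_of_add_eq_zero_right h.symm

theorem dlog_zpow {f : LaurentSeries K} (hf : f ≠ 0) (n : ℤ) :
    dlog (f ^ n) = (n : LaurentSeries K) * dlog f := by
  obtain ⟨m, rfl | rfl⟩ := n.eq_nat_or_neg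
  · rw [zpow_natCast, dlog_pow hf]
    push_cast
    rfl
  · rw [zpow_neg, zpow_natCast, dlog_inv (pow_ne_zero m hf), dlog_pow hf]
    push_cast
    ring

theorem dlog_const_smul {c : K} (hc : c ≠ 0) (f : LaurentSeries K) :
    dlog (c • f) = dlog f := by
  unfold dlog
  rw [theta_smul]
  by_cases hf : f = 0
  · subst hf; simp
  · rw [← HahnSeries.C_mul_eq_smul, ← HahnSeries.C_mul_eq_smul]
    have hC : (HahnSeries.C c : LaurentSeries K) ≠ 0 := by
      rw [Ne, ← map_zero (HahnSeries.C : K →+* LaurentSeries K)]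
      exact fun h => hc (HahnSeries.C_injective h)
    field_simp

theorem dlog_pow_char (p : ℕ) [Fact p.Prime] [CharP K p] (h : LaurentSeries K) :
    dlog (h ^ p) = 0 := by
  unfold dlog
  rw [theta_pow_char, zero_div]

theorem dlog_qExpand (m : ℕ) [NeZero m] (f : LaurentSeries K) :
    dlog (qExpand K m f) = (m : K) • qExpand K m (dlog f) := by
  unfold dlog
  rw [theta_qExpand, map_div₀, ← HahnSeries.C_mul_eq_smul, ← HahnSeries.C_mul_eq_smul,
    mul_div_assoc]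

theorem dlog_scale (c : Kˣ) (f : LaurentSeries K) : dlog (scale c f) = scale c (dlog f) := by
  unfold dlog
  rw [theta_scale, map_div₀]

/-! ### The sum over the `ℓ`-th roots of unity -/

theorem sum_zpow_primitiveRoot {ℓ : ℕ} [NeZero ℓ] {ζ : Kˣ} (hζ : IsPrimitiveRoot ζ ℓ) (n : ℤ) :
    ∑ b ∈ Finset.range ℓ, (((ζ ^ b) ^ n : Kˣ) : K) = if (ℓ : ℤ) ∣ n then (ℓ : K) else 0 := by
  have hrw : ∀ b : ℕ, (((ζ ^ b) ^ n : Kˣ) : K) = (((ζ ^ n : Kˣ) : K)) ^ b := by
    intro b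
    rw [← Units.val_pow_eq_pow_val, ← zpow_natCast (ζ ^ n) b, ← zpow_mul, ← zpow_natCast ζ b,
      ← zpow_mul, mul_comm]
  simp_rw [hrw]
  split_ifs with hn
  · have h1 : ζ ^ n = 1 := (hζ.zpow_eq_one_iff_dvd n).mpr hn
    rw [h1]
    simp
  · have h1 : ζ ^ n ≠ 1 := fun h => hn ((hζ.zpow_eq_one_iff_dvd n).mp h)
    have h2 : ((ζ ^ n : Kˣ) : K) ≠ 1 := fun h => h1 (Units.ext h)
    have h3 : ((ζ ^ n : Kˣ) : K) ^ ℓ = 1 := by
      rw [← Units.val_pow_eq_pow_val, ← zpow_natCast (ζ ^ n) ℓ, ← zpow_mul, mul_comm, zpow_mul,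
        zpow_natCast, hζ.pow_eq_one, one_zpow, Units.val_one]
    have h4 := geom_sum_mul (((ζ ^ n : Kˣ) : K)) ℓ
    rw [h3, sub_self] at h4
    rcases mul_eq_zero.mp h4 with h | h
    · exact h
    · exact absurd (sub_eq_zero.mp h) h2

/-- `∑_{b<ℓ} φ(ζ^b q) = ℓ • (U_ℓ φ)(q^ℓ)`. -/
theorem sum_scale_eq {ℓ : ℕ} [NeZero ℓ] {ζ : Kˣ} (hζ : IsPrimitiveRoot ζ ℓ)
    (φ : LaurentSeries K) :
    ∑ b ∈ Finset.range ℓ, scale (ζ ^ b) φ = (ℓ : K) • qExpand K ℓ (Uop ℓ φ) := by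
  ext n
  rw [HahnSeries.coeff_sum, HahnSeries.coeff_smul, smul_eq_mul]
  simp_rw [scale_coeff]
  rw [← Finset.sum_mul, sum_zpow_primitiveRoot hζ n]
  split_ifs with hn
  · obtain ⟨m, rfl⟩ := hn
    rw [qExpand_coeff_mul, Uop_coeff]
  · rw [qExpand_coeff_of_not_dvd ℓ _ hn, zero_mul, mul_zero]

/-! ### The main statement -/

/-- **The logarithmic derivative of the Hecke product formula is the weight-2 Hecke operator.**
If `g'(q^ℓ) = g(q^{ℓ²}) ∏_{b<ℓ} g(ζ^b q)` (the shape of the landed `ES.ProductFormula`) and `ℓ` is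
invertible in `K`, then `dlog g' = U_ℓ (dlog g) + ℓ (dlog g)(q^ℓ)`. -/
theorem dlog_eq_T2_of_productFormula {ℓ : ℕ} [NeZero ℓ] (hℓK : (ℓ : K) ≠ 0) {ζ : Kˣ}
    (hζ : IsPrimitiveRoot ζ ℓ) {g g' : LaurentSeries K} (hg : g ≠ 0)
    (hPF : qExpand K ℓ g' = qExpand K (ℓ * ℓ) g * ∏ b ∈ Finset.range ℓ, scale (ζ ^ b) g) :
    dlog g' = T2 ℓ (dlog g) := by
  have h1 : qExpand K (ℓ * ℓ) g ≠ 0 := fun h =>
    hg (qExpand_injective (R := K) (ℓ * ℓ) (by rw [h, map_zero]))
  have h2 : ∀ b ∈ Finset.range ℓ, scale (ζ ^ b) g ≠ 0 := fun b _ h =>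
    hg ((scaleEquiv (ζ ^ b)).injective (by rw [scaleEquiv_apply, h, map_zero]))
  have key := congrArg dlog hPF
  rw [dlog_qExpand, dlog_mul h1 (Finset.prod_ne_zero_iff.mpr h2), dlog_qExpand, dlog_prod _ _ h2]
    at key
  simp_rw [dlog_scale] at key
  rw [sum_scale_eq hζ, ← qExpand_qExpand (R := K) ℓ ℓ] at key
  -- `ℓ • V (dlog g') = ℓ² • V (V φ) + ℓ • V (U φ)`
  have key2 : (ℓ : K) • qExpand K ℓ (dlog g') =
      (ℓ : K) • qExpand K ℓ (T2 ℓ (dlog g)) := by
    rw [key]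
    unfold T2
    rw [map_add, smul_add]
    have : qExpand K ℓ ((ℓ : K) • qExpand K ℓ (dlog g)) =
        (ℓ : K) • qExpand K ℓ (qExpand K ℓ (dlog g)) := by
      rw [← HahnSeries.C_mul_eq_smul, map_mul, qExpand_C, HahnSeries.C_mul_eq_smul]
    rw [this, smul_smul]
    push_cast
    abel
  have key3 : qExpand K ℓ (dlog g') = qExpand K ℓ (T2 ℓ (dlog g)) := by
    have := congrArg (fun x => (ℓ : K)⁻¹ • x) key2
    simpa only [smul_smul, inv_mul_cancel₀ hℓK, one_smul] using this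
  exact qExpand_injective (R := K) ℓ key3

/-- **Eigen-series.** In characteristic `p`, if moreover `g' = c • g^a * w^p` (the relation
`T_ℓ x = a x` on a `p`-torsion class), then `dlog g` is an eigenvector of `T_ℓ = U_ℓ + ℓ V_ℓ`
with eigenvalue `a`. -/
theorem T2_dlog_eq_smul {p : ℕ} [Fact p.Prime] [CharP K p] {ℓ : ℕ} [NeZero ℓ] (hℓK : (ℓ : K) ≠ 0)
    {ζ : Kˣ} (hζ : IsPrimitiveRoot ζ ℓ) {g g' w : LaurentSeries K} (hg : g ≠ 0) (hw : w ≠ 0)
    {c : K} (hc : c ≠ 0) (a : ℤ)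
    (hPF : qExpand K ℓ g' = qExpand K (ℓ * ℓ) g * ∏ b ∈ Finset.range ℓ, scale (ζ ^ b) g)
    (hrel : g' = c • (g ^ a * w ^ p)) :
    T2 ℓ (dlog g) = (a : LaurentSeries K) * dlog g := by
  rw [← dlog_eq_T2_of_productFormula hℓK hζ hg hPF, hrel, dlog_const_smul hc,
    dlog_mul (zpow_ne_zero a hg) (pow_ne_zero p hw), dlog_zpow hg, dlog_pow_char, add_zero]

end Fermat.Agent.FF4.K8Series
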