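import Mathlib
import Fermat.Agent.ES.NormCongruence
import Fermat.Agent.FF4.K8Series.DlogHecke

/-!
# Programme II (S40), kernel K8, q-series leaf, part 2 (helper15):
the Hecke product formula reduced at a residue characteristic `p ≠ ℓ`, and its `dlog`

`A` a valuation subring of `Kb = ℚ̄` with residue field `k`, `ℓ` a prime which is a unit of `A`
(i.e. `ℓ ≠ char k`), `N` any level, `y ∈ Fb N` with `q`-expansion `ι y0`, `y0 ∈ A((q))`.

* `isPrimitiveRoot_residue` : a primitive `ℓ`-th root of unity of `Kb` reduces to a primitive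
  `ℓ`-th root of unity of `k`;
* `normReduction` : given `ES.ProductFormula N ℓ` (landed: `ES.productFormula`), the Hecke norm
  `Nm_{F'/αF}(β y)` has `q`-expansion `ι Y`, `Y ∈ A((q))`, and, with `g̃ = y0 mod 𝔪`,
  `g̃' = Y mod 𝔪`: `g̃'(q^ℓ) = g̃(q^{ℓ²}) ∏_{b<ℓ} g̃(ζ̄^b q)` in `k((q))`;
* `dlog_normReduction` : hence `dlog g̃' = T2 ℓ (dlog g̃)` (`T2 = U_ℓ + ℓ V_ℓ`) if `g̃ ≠ 0`.
-/

set_option autoImplicit false
set_option linter.style.haveILetI false
set_option linter.unusedSectionVars false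

noncomputable section

namespace Fermat.Agent.FF4.K8Series

open AlgebraicCurve ModularCurve HahnSeries Fermat.Agent.X0 Fermat.Agent.Hecke Fermat.Agent.Igusa
  Fermat.Agent.ES

variable {N ℓ : ℕ} [NeZero N] [NeZero ℓ]

/-- A primitive `ℓ`-th root of unity (`ℓ` prime, invertible in the residue field) reduces to a
primitive `ℓ`-th root of unity. -/
theorem isPrimitiveRoot_residue (hℓ : ℓ.Prime) (A : ValuationSubring Kb)
    (hℓk : (ℓ : IsLocalRing.ResidueField A) ≠ 0) {ζ0 : Kb} (hζ0 : IsPrimitiveRoot ζ0 ℓ) :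
    IsPrimitiveRoot
      (Units.map (IsLocalRing.residue A : A →* IsLocalRing.ResidueField A)
        (unitOfPowEqOne A hℓ.ne_zero hζ0.pow_eq_one)) ℓ := by
  set k := IsLocalRing.ResidueField A
  set π : A →+* k := IsLocalRing.residue A
  set ζA : Aˣ := unitOfPowEqOne A hℓ.ne_zero hζ0.pow_eq_one with hζA
  have hpow : (Units.map (π : A →* k) ζA) ^ ℓ = 1 := by
    rw [← map_pow]
    have : ζA ^ ℓ = 1 := by
      apply Units.ext
      apply Subtype.ext
      show ((ζA : A) : Kb) ^ ℓ = 1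
      exact hζ0.pow_eq_one
    rw [this, map_one]
  -- the order divides the prime `ℓ`; it is not `1`
  have hne : Units.map (π : A →* k) ζA ≠ 1 := by
    intro h1
    -- `∑_{b<ℓ} ζ^b = 0` in `A`; if `ζ̄ = 1` it reduces to `ℓ`
    have hsumK : ∑ b ∈ Finset.range ℓ, ζ0 ^ b = 0 := hζ0.geom_sum_eq_zero hℓ.one_lt
    have hsumA : (∑ b ∈ Finset.range ℓ, (ζA : A) ^ b : A) = 0 := by
      apply Subtype.ext
      push_cast
      rw [← hsumK]
      rfl
    have hred := congrArg π hsumA
    rw [map_sum, map_zero] at hred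
    have hπζ : π (ζA : A) = 1 := by
      have := congrArg (fun u : kˣ => (u : k)) h1
      simpa using this
    simp_rw [map_pow, hπζ, one_pow] at hred
    rw [Finset.sum_const, Finset.card_range, nsmul_eq_mul, mul_one] at hred
    exact hℓk hred
  have hord : orderOf (Units.map (π : A →* k) ζA) = ℓ := by
    have hdvd := orderOf_dvd_of_pow_eq_one hpow
    rcases (Nat.dvd_prime hℓ).mp hdvd with h | h
    · exact absurd (orderOf_eq_one_iff.mp h) hne
    · exact h
  rw [← hord]
  exact IsPrimitiveRoot.orderOf _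

/-- **The Hecke product formula reduced at a residue characteristic different from `ℓ`.** -/
theorem normReduction (hℓ : ℓ.Prime) (A : ValuationSubring Kb)
    (hℓk : (ℓ : IsLocalRing.ResidueField A) ≠ 0) (hPF : ProductFormula N ℓ)
    (y : Fb N) (y0 : LaurentSeries A)
    (hy0 : coeffMap A.subtype y0 = (y : LaurentSeries Kb)) :
    ∃ (Y : LaurentSeries A) (ζ : (IsLocalRing.ResidueField A)ˣ), IsPrimitiveRoot ζ ℓ ∧
      coeffMap A.subtype Y =
        ((normAlpha N ℓ (heckeBetaBar Kb N ℓ y) : Fb N) : LaurentSeries Kb) ∧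
      qExpand (IsLocalRing.ResidueField A) ℓ (coeffMap (IsLocalRing.residue A) Y) =
        qExpand (IsLocalRing.ResidueField A) (ℓ * ℓ) (coeffMap (IsLocalRing.residue A) y0) *
          ∏ b ∈ Finset.range ℓ, scale (ζ ^ b) (coeffMap (IsLocalRing.residue A) y0) := by
  classical
  set k := IsLocalRing.ResidueField A
  set π : A →+* k := IsLocalRing.residue A
  set ι : A →+* Kb := A.subtype
  have hι : Function.Injective ι := Subtype.val_injective
  have hℓ0 : ℓ ≠ 0 := hℓ.ne_zero
  obtain ⟨ζ0, hζ0⟩ := HasEnoughRootsOfUnity.exists_primitiveRoot Kb ℓ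
  have hζ0pow : ζ0 ^ ℓ = 1 := hζ0.pow_eq_one
  set ζ : Kbˣ := (hζ0.isUnit hℓ0).unit with hζdef
  have hζ : IsPrimitiveRoot ζ ℓ := by
    rw [← IsPrimitiveRoot.coe_units_iff]
    exact hζ0
  set ζA : Aˣ := unitOfPowEqOne A hℓ0 hζ0pow with hζAdef
  have hmapι : Units.map (ι : A →* Kb) ζA = ζ := by
    apply Units.ext
    rfl
  have hζk : IsPrimitiveRoot (Units.map (π : A →* k) ζA) ℓ := isPrimitiveRoot_residue hℓ A hℓk hζ0
  set Z : LaurentSeries A := ∏ b ∈ Finset.range ℓ, scale (ζA ^ b) y0 with hZ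
  have hZι : coeffMap ι Z = ∏ b ∈ Finset.range ℓ, scale (ζ ^ b) (y : LaurentSeries Kb) := by
    rw [hZ, map_prod]
    refine Finset.prod_congr rfl fun b _ => ?_
    rw [coeffMap_scale, map_pow, hmapι, hy0]
  have hZπ : coeffMap π Z =
      ∏ b ∈ Finset.range ℓ, scale ((Units.map (π : A →* k) ζA) ^ b) (coeffMap π y0) := by
    rw [hZ, map_prod]
    refine Finset.prod_congr rfl fun b _ => ?_
    rw [coeffMap_scale, map_pow]
  set T : LaurentSeries A := qExpand A (ℓ * ℓ) y0 * Z with hT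
  have hTι : coeffMap ι T =
      qExpand Kb ℓ ((normAlpha N ℓ (heckeBetaBar Kb N ℓ y) : Fb N) : LaurentSeries Kb) := by
    rw [hPF ζ hζ y, hT, map_mul, coeffMap_qExpand, hy0, hZι]
  obtain ⟨Y, hY⟩ := exists_coeffMap_eq_of_forall_coeff_mem ι
    ((normAlpha N ℓ (heckeBetaBar Kb N ℓ y) : Fb N) : LaurentSeries Kb) (fun n => by
      refine ⟨T.coeff ((ℓ : ℤ) * n), ?_⟩
      rw [← coeffMap_coeff, hTι, qExpand_coeff_mul])
  refine ⟨Y, Units.map (π : A →* k) ζA, hζk, hY, ?_⟩
  have hYT : qExpand A ℓ Y = T := by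
    apply coeffMap_injective_of_injective ι hι
    rw [coeffMap_qExpand, hY, hTι]
  have h1 := congrArg (coeffMap π) hYT
  rw [coeffMap_qExpand, hT, map_mul, coeffMap_qExpand, hZπ] at h1
  exact h1

/-- **`dlog` of the reduced Hecke norm is `T_ℓ` (weight 2) of the `dlog`.** -/
theorem dlog_normReduction (hℓ : ℓ.Prime) (A : ValuationSubring Kb)
    (hℓk : (ℓ : IsLocalRing.ResidueField A) ≠ 0) (hPF : ProductFormula N ℓ)
    (y : Fb N) (y0 : LaurentSeries A)
    (hy0 : coeffMap A.subtype y0 = (y : LaurentSeries Kb))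
    (hne : coeffMap (IsLocalRing.residue A) y0 ≠ 0) :
    ∃ Y : LaurentSeries A,
      coeffMap A.subtype Y =
        ((normAlpha N ℓ (heckeBetaBar Kb N ℓ y) : Fb N) : LaurentSeries Kb) ∧
      dlog (coeffMap (IsLocalRing.residue A) Y) =
        T2 ℓ (dlog (coeffMap (IsLocalRing.residue A) y0)) := by
  obtain ⟨Y, ζ, hζ, hY, hred⟩ := normReduction hℓ A hℓk hPF y y0 hy0
  exact ⟨Y, hY, dlog_eq_T2_of_productFormula hℓk hζ hne hred⟩

/-- **Eigen-series at residue characteristic `p ≠ ℓ`.** If the Hecke norm of `y` is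
`c · y^a · w^p` (the relation `T_ℓ x = a x` on a `p`-torsion class `x`, `p D = div y`), with
`A`-integral `q`-expansions `y0`, `w0` of nonzero reduction and `c` a unit of `A`, then
`dlog (y0 mod 𝔪)` is an eigenvector of `T_ℓ = U_ℓ + ℓ V_ℓ` with eigenvalue `a`. -/
theorem T2_dlog_of_eigen {p : ℕ} [Fact p.Prime] (hℓ : ℓ.Prime) (A : ValuationSubring Kb)
    [CharP (IsLocalRing.ResidueField A) p]
    (hℓk : (ℓ : IsLocalRing.ResidueField A) ≠ 0) (hPF : ProductFormula N ℓ)
    (y w : Fb N) (y0 w0 : LaurentSeries A)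
    (hy0 : coeffMap A.subtype y0 = (y : LaurentSeries Kb))
    (hw0 : coeffMap A.subtype w0 = (w : LaurentSeries Kb))
    (hne : coeffMap (IsLocalRing.residue A) y0 ≠ 0)
    (hwne : coeffMap (IsLocalRing.residue A) w0 ≠ 0)
    (c : A) (hc : IsLocalRing.residue A c ≠ 0) (a : ℕ)
    (hrel : ((normAlpha N ℓ (heckeBetaBar Kb N ℓ y) : Fb N) : LaurentSeries Kb) =
      HahnSeries.C (c : Kb) * ((y : LaurentSeries Kb) ^ a * (w : LaurentSeries Kb) ^ p)) :
    T2 ℓ (dlog (coeffMap (IsLocalRing.residue A) y0)) =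
      (a : LaurentSeries (IsLocalRing.ResidueField A)) *
        dlog (coeffMap (IsLocalRing.residue A) y0) := by
  set k := IsLocalRing.ResidueField A
  set π : A →+* k := IsLocalRing.residue A
  set ι : A →+* Kb := A.subtype
  have hι : Function.Injective ι := Subtype.val_injective
  obtain ⟨Y, hY, hdlog⟩ := dlog_normReduction hℓ A hℓk hPF y y0 hy0 hne
  have hYeq : Y = HahnSeries.C c * (y0 ^ a * w0 ^ p) := by
    apply coeffMap_injective_of_injective ι hι
    rw [hY, hrel, map_mul, map_mul, map_pow, map_pow, hy0, hw0]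
    congr 1
    ext n
    rw [coeffMap_coeff]
    by_cases hn : n = 0
    · subst hn
      simp [HahnSeries.C_apply]
      rfl
    · rw [HahnSeries.C_apply, HahnSeries.C_apply, HahnSeries.coeff_single_of_ne hn,
        HahnSeries.coeff_single_of_ne hn, map_zero]
  have hπY : coeffMap π Y = (π c) • ((coeffMap π y0) ^ a * (coeffMap π w0) ^ p) := by
    rw [hYeq, map_mul, map_mul, map_pow, map_pow, ← HahnSeries.C_mul_eq_smul]
    congr 1
    ext n
    rw [coeffMap_coeff]
    by_cases hn : n = 0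
    · subst hn
      simp [HahnSeries.C_apply]
    · rw [HahnSeries.C_apply, HahnSeries.C_apply, HahnSeries.coeff_single_of_ne hn,
        HahnSeries.coeff_single_of_ne hn, map_zero]
  rw [← hdlog, hπY, dlog_const_smul hc, dlog_mul (pow_ne_zero a hne) (pow_ne_zero p hwne),
    dlog_pow hne, dlog_pow_char, add_zero]

end Fermat.Agent.FF4.K8Series
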