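import Mathlib
import Fermat.Agent.ES.NormCongruence
import Fermat.Agent.BR.ResGen
import Fermat.Agent.BR3.MidBeta
import Fermat.Agent.FF4.K8Series.RedPF

/-!
# Programme II (S40), kernel K8, q-series leaf `(Q5)` on the LOCALISED Gauss ring (helper15)

Referee repair `(R2)` (helper16): an element of `O1 = F ∩ gaussRingA` need not have an
`A`-integral `q`-expansion, and the Gauss residue is `ā / b̄`, not the coefficientwise reduction.
This file restates `RedPF.normReduction`, `dlog_normReduction`, `T2_dlog_of_eigen` on the carrier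
`gaussRingA A π ⊂ ℚ̄((q))` with the ring homomorphism `gaussResA A π`
(`A` a valuation subring of `Kb = ℚ̄` over a rational prime `p`, `π = IsLocalRing.residue A`).

* `gauss_normReduction` : if `↑y ∈ gaussRingA` then `↑(Nm_α(β y)) ∈ gaussRingA` and, with
  `g̃ = res y`, `g̃' = res (Nm_α(β y))`: `g̃'(q^ℓ) = g̃(q^{ℓ²}) ∏_{b<ℓ} g̃(ζ̄^b q)` in `k((q))`;
* `gauss_dlog_normReduction` : hence `g̃' ≠ 0` and `dlog g̃' = T2 ℓ (dlog g̃)` if `g̃ ≠ 0`;
* `gauss_T2_dlog_of_rel` : **eigen-series**. If `Nm_α(β y) · y^m = c · y^n · w^p` in `ℚ̄((q))`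
  (`c ∈ ℚ̄ˣ` ANY nonzero constant, `w ∈ Fb N` ANY nonzero function: no normalisation of `c`, `w`
  is asked of the consumer) and `res y ≠ 0`, then
  `T2 ℓ (dlog (res y)) = (n - m) · dlog (res y)`;
* `gauss_T2_dlog_of_eigen` : the case `m = 0`.
-/

set_option autoImplicit false
set_option linter.style.haveILetI false
set_option linter.unusedSectionVars false

noncomputable section

namespace Fermat.Agent.FF4.K8Series

open AlgebraicCurve ModularCurve HahnSeries Fermat.Agent.X0 Fermat.Agent.Hecke Fermat.Agent.Igusa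
  Fermat.Agent.ES Fermat.Agent.Val

variable {N ℓ : ℕ} [NeZero N] [NeZero ℓ]

/-- **The Hecke product formula reduced at a residue characteristic different from `ℓ`**, on the
localised Gauss ring. -/
theorem gauss_normReduction {p : ℕ} (hp : p ≠ 0) (hℓ : ℓ.Prime) (A : ValuationSubring Kb)
    (hA : A.LiesOverPrime p) (hℓk : (ℓ : IsLocalRing.ResidueField A) ≠ 0)
    (hPF : ProductFormula N ℓ) (y : Fb N)
    (hy : (y : LaurentSeries Kb) ∈ gaussRingA A (IsLocalRing.residue A)) :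
    ∃ (hY : ((normAlpha N ℓ (heckeBetaBar Kb N ℓ y) : Fb N) : LaurentSeries Kb) ∈
        gaussRingA A (IsLocalRing.residue A)) (ζ : (IsLocalRing.ResidueField A)ˣ),
      IsPrimitiveRoot ζ ℓ ∧
      qExpand (IsLocalRing.ResidueField A) ℓ
          (gaussResA A (IsLocalRing.residue A)
            ⟨((normAlpha N ℓ (heckeBetaBar Kb N ℓ y) : Fb N) : LaurentSeries Kb), hY⟩) =
        qExpand (IsLocalRing.ResidueField A) (ℓ * ℓ)
            (gaussResA A (IsLocalRing.residue A) ⟨(y : LaurentSeries Kb), hy⟩) *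
          ∏ b ∈ Finset.range ℓ,
            scale (ζ ^ b) (gaussResA A (IsLocalRing.residue A) ⟨(y : LaurentSeries Kb), hy⟩) := by
  classical
  set k := IsLocalRing.ResidueField A
  set π : A →+* k := IsLocalRing.residue A
  have hπ : ∀ a : A, a ∈ IsLocalRing.maximalIdeal A → π a = 0 :=
    residue_eq_zero_of_mem_maximalIdeal A
  have hℓ0 : ℓ ≠ 0 := hℓ.ne_zero
  obtain ⟨ζ0, hζ0⟩ := HasEnoughRootsOfUnity.exists_primitiveRoot Kb ℓ
  have hζ0pow : ζ0 ^ ℓ = 1 := hζ0.pow_eq_one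
  set ζ : Kbˣ := (hζ0.isUnit hℓ0).unit with hζdef
  have hζ : IsPrimitiveRoot ζ ℓ := by
    rw [← IsPrimitiveRoot.coe_units_iff]
    exact hζ0
  set ζA : Aˣ := unitOfPowEqOne A hℓ0 hζ0pow with hζAdef
  have hmapι : Units.map (A.subtype : A →* Kb) ζA = ζ := by
    apply Units.ext
    rfl
  have hζk : IsPrimitiveRoot (Units.map (π : A →* k) ζA) ℓ := isPrimitiveRoot_residue hℓ A hℓk hζ0
  set Nm : Fb N := normAlpha N ℓ (heckeBetaBar Kb N ℓ y) with hNm
  -- the factors are Gauss integral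
  have hV : qExpand Kb (ℓ * ℓ) (y : LaurentSeries Kb) ∈ gaussRingA A π :=
    Fermat.Agent.BR.ResGen.qExpand_mem_gaussRingA (ℓ * ℓ) hy
  have hS : ∀ b : ℕ, scale (ζ ^ b) (y : LaurentSeries Kb) ∈ gaussRingA A π := by
    intro b
    have h := Fermat.Agent.BR3.MidBeta.scale_mem_gaussRingA A π (ζA ^ b) hy
    rwa [map_pow, hmapι] at h
  have hresS : ∀ b : ℕ, gaussResA A π ⟨scale (ζ ^ b) (y : LaurentSeries Kb), hS b⟩ =
      scale ((Units.map (π : A →* k) ζA) ^ b) (gaussResA A π ⟨(y : LaurentSeries Kb), hy⟩) := by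
    intro b
    have h := Fermat.Agent.BR3.MidBeta.gaussResA_scale A π (ζA ^ b) hy
    have h2 : Units.map (π : A →* k) (ζA ^ b) = (Units.map (π : A →* k) ζA) ^ b := map_pow _ _ _
    rw [← h2, ← h]
    apply Fermat.Agent.BR.ResGen.gaussResA_congr
    rw [map_pow, hmapι]
  -- the product, as an element of the Gauss ring
  set P : gaussRingA A π :=
    ⟨qExpand Kb (ℓ * ℓ) (y : LaurentSeries Kb), hV⟩ *
      ∏ b ∈ Finset.range ℓ, (⟨scale (ζ ^ b) (y : LaurentSeries Kb), hS b⟩ : gaussRingA A π)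
    with hP
  have hPcoe : (P : LaurentSeries Kb) = qExpand Kb ℓ (Nm : LaurentSeries Kb) := by
    rw [hPF ζ hζ y, hP, Subring.coe_mul, SubmonoidClass.coe_finsetProd]
  have hQ : qExpand Kb ℓ (Nm : LaurentSeries Kb) ∈ gaussRingA A π := hPcoe ▸ P.2
  have hY : (Nm : LaurentSeries Kb) ∈ gaussRingA A π :=
    (Fermat.Agent.BR.ResGen.qExpand_mem_gaussRingA_iff ℓ hπ
      (fun h0 => Fermat.Agent.BR.ResGen.exists_hasContent A hp hA Nm h0)).mp hQ
  refine ⟨hY, Units.map (π : A →* k) ζA, hζk, ?_⟩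
  have h1 : gaussResA A π ⟨qExpand Kb ℓ (Nm : LaurentSeries Kb),
      Fermat.Agent.BR.ResGen.qExpand_mem_gaussRingA ℓ hY⟩ = gaussResA A π P :=
    Fermat.Agent.BR.ResGen.gaussResA_congr A _ _ hPcoe.symm
  rw [← Fermat.Agent.BR.ResGen.gaussResA_qExpand ℓ hY, h1, hP, map_mul, map_prod,
    Fermat.Agent.BR.ResGen.gaussResA_qExpand (ℓ * ℓ) hy]
  congr 1
  exact Finset.prod_congr rfl fun b _ => hresS b

/-- **`dlog` of the reduced Hecke norm is `T_ℓ` (weight 2) of the `dlog`**, Gauss-ring form. -/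
theorem gauss_dlog_normReduction {p : ℕ} (hp : p ≠ 0) (hℓ : ℓ.Prime) (A : ValuationSubring Kb)
    (hA : A.LiesOverPrime p) (hℓk : (ℓ : IsLocalRing.ResidueField A) ≠ 0)
    (hPF : ProductFormula N ℓ) (y : Fb N)
    (hy : (y : LaurentSeries Kb) ∈ gaussRingA A (IsLocalRing.residue A))
    (hne : gaussResA A (IsLocalRing.residue A) ⟨(y : LaurentSeries Kb), hy⟩ ≠ 0) :
    ∃ (hY : ((normAlpha N ℓ (heckeBetaBar Kb N ℓ y) : Fb N) : LaurentSeries Kb) ∈
        gaussRingA A (IsLocalRing.residue A)),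
      gaussResA A (IsLocalRing.residue A)
          ⟨((normAlpha N ℓ (heckeBetaBar Kb N ℓ y) : Fb N) : LaurentSeries Kb), hY⟩ ≠ 0 ∧
      dlog (gaussResA A (IsLocalRing.residue A)
          ⟨((normAlpha N ℓ (heckeBetaBar Kb N ℓ y) : Fb N) : LaurentSeries Kb), hY⟩) =
        T2 ℓ (dlog (gaussResA A (IsLocalRing.residue A) ⟨(y : LaurentSeries Kb), hy⟩)) := by
  obtain ⟨hY, ζ, hζ, hred⟩ := gauss_normReduction hp hℓ A hA hℓk hPF y hy
  refine ⟨hY, ?_, dlog_eq_T2_of_productFormula hℓk hζ hne hred⟩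
  intro h0
  rw [h0, map_zero] at hred
  have h1 : qExpand (IsLocalRing.ResidueField A) (ℓ * ℓ)
      (gaussResA A (IsLocalRing.residue A) ⟨(y : LaurentSeries Kb), hy⟩) ≠ 0 := fun h =>
    hne (qExpand_injective (R := IsLocalRing.ResidueField A) (ℓ * ℓ) (by rw [h, map_zero]))
  have h2 : ∀ b ∈ Finset.range ℓ,
      scale (ζ ^ b) (gaussResA A (IsLocalRing.residue A) ⟨(y : LaurentSeries Kb), hy⟩) ≠ 0 :=
    fun b _ h =>
      hne ((scaleEquiv (ζ ^ b)).injective (by rw [scaleEquiv_apply, h, map_zero]))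
  exact mul_ne_zero h1 (Finset.prod_ne_zero_iff.mpr h2) hred.symm

/-- **Eigen-series at residue characteristic `p ≠ ℓ`, Gauss-ring form.** If
`Nm_α(β y) · y^m = c · y^n · w^p` in `ℚ̄((q))` — the relation `T_ℓ x = (n - m) x` on a `p`-torsion
class `x`, `p D = div y` — with `c ∈ ℚ̄ˣ` any constant and `w ∈ Fb N` any nonzero function, and `y`
is Gauss integral with nonzero residue `g̃`, then `dlog g̃` is an eigenvector of
`T_ℓ = U_ℓ + ℓ V_ℓ` with eigenvalue `n - m`. -/
theorem gauss_T2_dlog_of_rel {p : ℕ} [hp : Fact p.Prime] (hℓ : ℓ.Prime) (A : ValuationSubring Kb)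
    (hA : A.LiesOverPrime p) (hℓk : (ℓ : IsLocalRing.ResidueField A) ≠ 0)
    (hPF : ProductFormula N ℓ) (y w : Fb N)
    (hy : (y : LaurentSeries Kb) ∈ gaussRingA A (IsLocalRing.residue A))
    (hne : gaussResA A (IsLocalRing.residue A) ⟨(y : LaurentSeries Kb), hy⟩ ≠ 0)
    (hw : w ≠ 0) (c : Kb) (hc : c ≠ 0) (m n : ℕ)
    (hrel : ((normAlpha N ℓ (heckeBetaBar Kb N ℓ y) : Fb N) : LaurentSeries Kb) *
        (y : LaurentSeries Kb) ^ m =
      HahnSeries.C c * ((y : LaurentSeries Kb) ^ n * (w : LaurentSeries Kb) ^ p)) :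
    T2 ℓ (dlog (gaussResA A (IsLocalRing.residue A) ⟨(y : LaurentSeries Kb), hy⟩)) =
      (((n : ℤ) - (m : ℤ) : ℤ) : LaurentSeries (IsLocalRing.ResidueField A)) *
        dlog (gaussResA A (IsLocalRing.residue A) ⟨(y : LaurentSeries Kb), hy⟩) := by
  classical
  haveI : CharP (IsLocalRing.ResidueField A) p := charP_residueField_of_liesOverPrime A hA
  set k := IsLocalRing.ResidueField A
  set π : A →+* k := IsLocalRing.residue A
  have hπ : ∀ a : A, a ∈ IsLocalRing.maximalIdeal A → π a = 0 :=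
    residue_eq_zero_of_mem_maximalIdeal A
  obtain ⟨hY, hNmne, hdlog⟩ :=
    gauss_dlog_normReduction hp.out.ne_zero hℓ A hA hℓk hPF y hy hne
  set Nm : Fb N := normAlpha N ℓ (heckeBetaBar Kb N ℓ y) with hNm
  -- content of `w`
  have hw' : (w : LaurentSeries Kb) ≠ 0 := fun h => hw (Subtype.ext h)
  obtain ⟨d, hd0, a₁, b₁, ha₁, hb₁, hab₁⟩ :=
    Fermat.Agent.BR.ResGen.exists_hasContent A hp.out.ne_zero hA w hw'
  set c' : Kb := c * d ^ p with hc'
  have hc'0 : c' ≠ 0 := mul_ne_zero hc (pow_ne_zero p hd0)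
  -- elements of the Gauss ring
  set G := gaussRingA A π
  set yG : G := ⟨(y : LaurentSeries Kb), hy⟩ with hyG
  set NmG : G := ⟨(Nm : LaurentSeries Kb), hY⟩ with hNmG
  set aG : G := ⟨aIota A a₁, aIota_mem_gaussRingA A π a₁⟩ with haG
  set bG : G := ⟨aIota A b₁, aIota_mem_gaussRingA A π b₁⟩ with hbG
  have hresa : gaussResA A π aG = aRed π a₁ := gaussResA_aIota A π a₁
  have hresb : gaussResA A π bG = aRed π b₁ := gaussResA_aIota A π b₁
  set XG : G := yG ^ n * aG ^ p with hXG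
  have hXres : gaussResA A π XG ≠ 0 := by
    rw [hXG, map_mul, map_pow, map_pow, hresa]
    exact mul_ne_zero (pow_ne_zero n hne) (pow_ne_zero p ha₁)
  -- the relation multiplied by `b₁ ^ p`
  have hE : ((NmG * yG ^ m * bG ^ p : G) : LaurentSeries Kb) =
      HahnSeries.C c' * (XG : LaurentSeries Kb) := by
    rw [Subring.coe_mul, Subring.coe_mul, Subring.coe_pow, Subring.coe_pow, hXG, Subring.coe_mul,
      Subring.coe_pow, Subring.coe_pow]
    show (Nm : LaurentSeries Kb) * (y : LaurentSeries Kb) ^ m * aIota A b₁ ^ p =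
      HahnSeries.C c' * ((y : LaurentSeries Kb) ^ n * aIota A a₁ ^ p)
    rw [hrel, hc', map_mul, map_pow]
    calc HahnSeries.C c * ((y : LaurentSeries Kb) ^ n * (w : LaurentSeries Kb) ^ p) *
          aIota A b₁ ^ p
        = HahnSeries.C c * ((y : LaurentSeries Kb) ^ n *
            ((w : LaurentSeries Kb) * aIota A b₁) ^ p) := by ring
      _ = HahnSeries.C c * ((y : LaurentSeries Kb) ^ n *
            (HahnSeries.C d * aIota A a₁) ^ p) := by rw [hab₁]
      _ = _ := by ring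
  -- the constant is Gauss integral
  have hX0 : (XG : LaurentSeries Kb) ≠ 0 := by
    intro h
    apply hXres
    have : XG = 0 := Subtype.ext h
    rw [this, map_zero]
  have hCmem : (HahnSeries.C c' : LaurentSeries Kb) ∈ G := by
    have h1 : (HahnSeries.C c' : LaurentSeries Kb) =
        ((NmG * yG ^ m * bG ^ p : G) : LaurentSeries Kb) * (XG : LaurentSeries Kb)⁻¹ := by
      rw [hE, mul_inv_cancel_right₀ hX0]
    rw [h1]
    exact G.mul_mem (NmG * yG ^ m * bG ^ p).2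
      (inv_mem_gaussRingA_of_gaussResA_ne_zero A π XG hXres)
  have hc'A : c' ∈ A := ((hasContent_C A π hc'0).mem_gaussRingA_iff hπ).mp hCmem
  obtain ⟨hCmem', hCres⟩ := gaussResA_C A π (⟨c', hc'A⟩ : A)
  set γ : k := π ⟨c', hc'A⟩ with hγ
  -- the residue relation
  have hEG : NmG * yG ^ m * bG ^ p = ⟨HahnSeries.C c', hCmem'⟩ * XG := Subtype.ext hE
  have hres := congrArg (gaussResA A π) hEG
  rw [map_mul, map_mul, map_pow, map_pow, map_mul, hCres, hXG, map_mul, map_pow, map_pow, hresa,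
    hresb] at hres
  set g := gaussResA A π yG with hg
  set g' := gaussResA A π NmG with hg'
  have hγ0 : γ ≠ 0 := by
    intro h0
    rw [h0, map_zero, zero_mul] at hres
    exact mul_ne_zero (mul_ne_zero hNmne (pow_ne_zero m hne)) (pow_ne_zero p hb₁) hres
  have hg'eq : g' = γ • (g ^ ((n : ℤ) - (m : ℤ)) * (aRed π a₁ / aRed π b₁) ^ p) := by
    rw [← HahnSeries.C_mul_eq_smul, zpow_sub₀ hne, zpow_natCast, zpow_natCast, div_pow]
    have hb₁p : aRed π b₁ ^ p ≠ 0 := pow_ne_zero p hb₁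
    have hgm : g ^ m ≠ 0 := pow_ne_zero m hne
    field_simp
    rw [hres]
    ring
  rw [← hdlog]
  show dlog g' = _
  rw [hg'eq, dlog_const_smul hγ0,
    dlog_mul (zpow_ne_zero _ hne) (pow_ne_zero p (div_ne_zero ha₁ hb₁)), dlog_zpow hne,
    dlog_pow_char, add_zero]

/-- The case `m = 0` of `gauss_T2_dlog_of_rel`: `Nm_α(β y) = c · y^a · w^p`. -/
theorem gauss_T2_dlog_of_eigen {p : ℕ} [hp : Fact p.Prime] (hℓ : ℓ.Prime)
    (A : ValuationSubring Kb) (hA : A.LiesOverPrime p)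
    (hℓk : (ℓ : IsLocalRing.ResidueField A) ≠ 0)
    (hPF : ProductFormula N ℓ) (y w : Fb N)
    (hy : (y : LaurentSeries Kb) ∈ gaussRingA A (IsLocalRing.residue A))
    (hne : gaussResA A (IsLocalRing.residue A) ⟨(y : LaurentSeries Kb), hy⟩ ≠ 0)
    (hw : w ≠ 0) (c : Kb) (hc : c ≠ 0) (a : ℕ)
    (hrel : ((normAlpha N ℓ (heckeBetaBar Kb N ℓ y) : Fb N) : LaurentSeries Kb) =
      HahnSeries.C c * ((y : LaurentSeries Kb) ^ a * (w : LaurentSeries Kb) ^ p)) :
    T2 ℓ (dlog (gaussResA A (IsLocalRing.residue A) ⟨(y : LaurentSeries Kb), hy⟩)) =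
      (a : LaurentSeries (IsLocalRing.ResidueField A)) *
        dlog (gaussResA A (IsLocalRing.residue A) ⟨(y : LaurentSeries Kb), hy⟩) := by
  have h := gauss_T2_dlog_of_rel hℓ A hA hℓk hPF y w hy hne hw c hc 0 a
    (by rw [pow_zero, mul_one]; exact hrel)
  rw [h]
  push_cast
  rw [sub_zero]

end Fermat.Agent.FF4.K8Series
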