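import Mathlib
import Fermat.Agent.FF4.K8Series.GaussPF

/-!
# Programme II (S44), kernel K8, q-series leaf `(Q5)`: the consumer shape (helper15)

`gauss_T2_dlog_of_rel` restated in the binder shape of `heig` in the K8 end game
(`FF4/K8/EndGame.lean`, helper19):
`T2 ℓ (theta g̃ / g̃) = a • (theta g̃ / g̃)` with `a : k` the image of an integer eigenvalue.

* `intCast_mul_eq_smul` : `(z : k((q))) * b = (z : k) • b`;
* `gauss_T2_theta_div_of_rel` : from `Nm_α(β y) · y^m = c · y^n · w^p`, eigenvalue `n - m`;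
* `gauss_T2_theta_div_of_rel_int` : the same with any integer `a ≡ n - m (mod p)`.
-/

set_option autoImplicit false
set_option linter.style.haveILetI false
set_option linter.unusedSectionVars false

noncomputable section

namespace Fermat.Agent.FF4.K8Series

open AlgebraicCurve ModularCurve HahnSeries Fermat.Agent.X0 Fermat.Agent.Hecke Fermat.Agent.Igusa
  Fermat.Agent.ES Fermat.Agent.Val

theorem intCast_mul_eq_smul {K : Type*} [Field K] (z : ℤ) (b : LaurentSeries K) :
    (z : LaurentSeries K) * b = (z : K) • b := by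
  rw [← HahnSeries.C_mul_eq_smul, map_intCast]

variable {N ℓ : ℕ} [NeZero N] [NeZero ℓ]

/-- `(Q5)` in the binder shape of the K8 end game: eigenvalue `n - m`. -/
theorem gauss_T2_theta_div_of_rel {p : ℕ} [hp : Fact p.Prime] (hℓ : ℓ.Prime)
    (A : ValuationSubring Kb) (hA : A.LiesOverPrime p)
    (hℓk : (ℓ : IsLocalRing.ResidueField A) ≠ 0)
    (hPF : ProductFormula N ℓ) (y w : Fb N)
    (hy : (y : LaurentSeries Kb) ∈ gaussRingA A (IsLocalRing.residue A))
    (hne : gaussResA A (IsLocalRing.residue A) ⟨(y : LaurentSeries Kb), hy⟩ ≠ 0)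
    (hw : w ≠ 0) (c : Kb) (hc : c ≠ 0) (m n : ℕ)
    (hrel : ((normAlpha N ℓ (heckeBetaBar Kb N ℓ y) : Fb N) : LaurentSeries Kb) *
        (y : LaurentSeries Kb) ^ m =
      HahnSeries.C c * ((y : LaurentSeries Kb) ^ n * (w : LaurentSeries Kb) ^ p)) :
    T2 ℓ (theta (gaussResA A (IsLocalRing.residue A) ⟨(y : LaurentSeries Kb), hy⟩) /
        gaussResA A (IsLocalRing.residue A) ⟨(y : LaurentSeries Kb), hy⟩) =
      ((((n : ℤ) - (m : ℤ) : ℤ)) : IsLocalRing.ResidueField A) •
        (theta (gaussResA A (IsLocalRing.residue A) ⟨(y : LaurentSeries Kb), hy⟩) /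
          gaussResA A (IsLocalRing.residue A) ⟨(y : LaurentSeries Kb), hy⟩) := by
  have h := gauss_T2_dlog_of_rel hℓ A hA hℓk hPF y w hy hne hw c hc m n hrel
  rw [intCast_mul_eq_smul] at h
  exact h

/-- `(Q5)` in the binder shape of the K8 end game: any integer eigenvalue `a ≡ n - m (mod p)`. -/
theorem gauss_T2_theta_div_of_rel_int {p : ℕ} [hp : Fact p.Prime] (hℓ : ℓ.Prime)
    (A : ValuationSubring Kb) (hA : A.LiesOverPrime p)
    (hℓk : (ℓ : IsLocalRing.ResidueField A) ≠ 0)
    (hPF : ProductFormula N ℓ) (y w : Fb N)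
    (hy : (y : LaurentSeries Kb) ∈ gaussRingA A (IsLocalRing.residue A))
    (hne : gaussResA A (IsLocalRing.residue A) ⟨(y : LaurentSeries Kb), hy⟩ ≠ 0)
    (hw : w ≠ 0) (c : Kb) (hc : c ≠ 0) (m n : ℕ)
    (hrel : ((normAlpha N ℓ (heckeBetaBar Kb N ℓ y) : Fb N) : LaurentSeries Kb) *
        (y : LaurentSeries Kb) ^ m =
      HahnSeries.C c * ((y : LaurentSeries Kb) ^ n * (w : LaurentSeries Kb) ^ p))
    (a : ℤ) (ha : (p : ℤ) ∣ a - ((n : ℤ) - (m : ℤ))) :
    T2 ℓ (theta (gaussResA A (IsLocalRing.residue A) ⟨(y : LaurentSeries Kb), hy⟩) /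
        gaussResA A (IsLocalRing.residue A) ⟨(y : LaurentSeries Kb), hy⟩) =
      (a : IsLocalRing.ResidueField A) •
        (theta (gaussResA A (IsLocalRing.residue A) ⟨(y : LaurentSeries Kb), hy⟩) /
          gaussResA A (IsLocalRing.residue A) ⟨(y : LaurentSeries Kb), hy⟩) := by
  haveI : CharP (IsLocalRing.ResidueField A) p := charP_residueField_of_liesOverPrime A hA
  have h := gauss_T2_theta_div_of_rel hℓ A hA hℓk hPF y w hy hne hw c hc m n hrel
  have h1 : (a : IsLocalRing.ResidueField A) =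
      ((((n : ℤ) - (m : ℤ) : ℤ)) : IsLocalRing.ResidueField A) := by
    have h2 := (CharP.intCast_eq_zero_iff (IsLocalRing.ResidueField A) p _).mpr ha
    rw [Int.cast_sub] at h2
    exact sub_eq_zero.mp h2
  rw [h1]
  exact h

end Fermat.Agent.FF4.K8Series
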