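import Mathlib
import Fermat.Agent.BR.ResGen
import Fermat.Agent.BR3.MidBeta
import Fermat.Agent.FF4.K8Series.RedPF
import Fermat.Agent.FF4.K8Series.FreeHecke

/-!
# Programme II (S40), kernel K8, block `(QH)` on the LOCALISED Gauss ring (helper15)

Referee repair `(R2)` (helper16): the Gauss residue is not coefficientwise, so `(QH)` must read
"`U_ℓ`, `V_ℓ`, `T_ℓ` preserve `gaussRingA` and commute with `gaussResA`".

`L` a field, `A` a valuation subring, `π : A →+* k` a ring homomorphism to a field killing the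
maximal ideal, `ζA ∈ Aˣ` a primitive `ℓ`-th root of unity.

* `eq_qExpand_Uop_of_scale_eq` : a series over a domain fixed by `q ↦ ζ q` is a series in `q^ℓ`;
* `scale_prod_scale`, `exists_qExpand_eq_prod_scale` : the norm `∏_{c<ℓ} b(ζ^c q)` is a series
  in `q^ℓ`;
* **`mem_gaussRingA_of_qExpand_mem`** (descent): `Y(q^ℓ)` Gauss integral ⇒ `Y` Gauss integral —
  no content hypothesis (the landed `qExpand_mem_gaussRingA_iff` asks for a content);
* **`Uop_mem_gaussRingA`, `gaussResA_Uop`**, `T2_mem_gaussRingA`, **`gaussResA_T2`** (`ℓ ≠ 0` in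
  `k`, `ζ̄` primitive);
* over `Kb = ℚ̄`, `π = IsLocalRing.residue A`: **`gaussResA_liftT2`** (polynomials in the `T_ℓ`,
  `ℓ` prime `≠ char k`) and the end game in Gauss form
  **`lift_eq_zero_of_eigen_of_gaussRes`** : if `y ∈ gaussRingA` is killed by `t`, and
  `b = res y ≠ 0` is an eigen-series with eigenvalues `a i`, then `FreeAlgebra.lift ℤ a t = 0`.
-/

set_option autoImplicit false
set_option linter.style.haveILetI false
set_option linter.unusedSectionVars false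

noncomputable section

namespace Fermat.Agent.FF4.K8Series

open ModularCurve HahnSeries Fermat.Agent.Igusa Fermat.Agent.Val Fermat.Agent.ES

/-! ### The norm `∏_{c<ℓ} b(ζ^c q)` is a series in `q^ℓ` -/

section Norm

variable {R : Type*} [CommRing R] {ℓ : ℕ} [NeZero ℓ]

theorem prod_range_shift {M : Type*} [CommMonoid M] (g : ℕ → M) {n : ℕ} (hn : n ≠ 0)
    (h : g n = g 0) : ∏ c ∈ Finset.range n, g (c + 1) = ∏ c ∈ Finset.range n, g c := by
  obtain ⟨n', rfl⟩ := Nat.exists_eq_succ_of_ne_zero hn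
  rw [Finset.prod_range_succ, Finset.prod_range_succ' g n', h]

theorem prod_range_eq_mul {M : Type*} [CommMonoid M] (g : ℕ → M) {n : ℕ} (hn : n ≠ 0) :
    ∏ c ∈ Finset.range n, g c = g 0 * ∏ c ∈ Finset.range (n - 1), g (c + 1) := by
  obtain ⟨n', rfl⟩ := Nat.exists_eq_succ_of_ne_zero hn
  rw [Finset.prod_range_succ' g n', Nat.succ_sub_one, mul_comm]

/-- A series over a domain which is fixed by `q ↦ ζ q`, `ζ` a primitive `ℓ`-th root of unity, is
a series in `q^ℓ`. -/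
theorem eq_qExpand_Uop_of_scale_eq [IsDomain R] {ζ : Rˣ} (hζ : IsPrimitiveRoot ζ ℓ)
    {P : LaurentSeries R} (hP : scale ζ P = P) : P = qExpand R ℓ (Uop ℓ P) := by
  ext n
  by_cases hn : (ℓ : ℤ) ∣ n
  · obtain ⟨j, rfl⟩ := hn
    rw [qExpand_coeff_mul, Uop_coeff]
  · rw [qExpand_coeff_of_not_dvd ℓ _ hn]
    have h1 := congrArg (fun s : LaurentSeries R => s.coeff n) hP
    simp only [scale_coeff] at h1
    have h2 : (((ζ ^ n : Rˣ) : R) - 1) * P.coeff n = 0 := by rw [sub_mul, one_mul, h1, sub_self]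
    rcases mul_eq_zero.mp h2 with h3 | h3
    · exfalso
      have h4 : ((ζ ^ n : Rˣ) : R) = 1 := sub_eq_zero.mp h3
      have h5 : ζ ^ n = 1 := Units.ext h4
      exact hn ((hζ.zpow_eq_one_iff_dvd n).mp h5)
    · exact h3

/-- The norm is fixed by `q ↦ ζ q`. -/
theorem scale_prod_scale {ζ : Rˣ} (hζ : ζ ^ ℓ = 1) (b : LaurentSeries R) :
    scale ζ (∏ c ∈ Finset.range ℓ, scale (ζ ^ c) b) = ∏ c ∈ Finset.range ℓ, scale (ζ ^ c) b := by
  rw [map_prod]
  have h1 : ∀ c : ℕ, scale ζ (scale (ζ ^ c) b) = scale (ζ ^ (c + 1)) b := fun c => by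
    rw [scale_scale, ← pow_succ']
  simp_rw [h1]
  exact prod_range_shift (fun c => scale (ζ ^ c) b) (NeZero.ne ℓ) (by rw [hζ, pow_zero])

/-- The norm `∏_{c<ℓ} b(ζ^c q)` is a series in `q^ℓ`. -/
theorem exists_qExpand_eq_prod_scale [IsDomain R] {ζ : Rˣ} (hζ : IsPrimitiveRoot ζ ℓ)
    (b : LaurentSeries R) :
    ∃ B₀ : LaurentSeries R, qExpand R ℓ B₀ = ∏ c ∈ Finset.range ℓ, scale (ζ ^ c) b :=
  ⟨_, (eq_qExpand_Uop_of_scale_eq hζ (scale_prod_scale hζ.pow_eq_one b)).symm⟩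

end Norm

/-! ### Descent along `q ↦ q^ℓ` -/

section Descent

variable {L : Type*} [Field L] (A : ValuationSubring L) {k : Type*} [Field k] (π : A →+* k)
variable {ℓ : ℕ} [NeZero ℓ]

/-- **Descent.** If `Y(q^ℓ)` is Gauss integral then so is `Y` (no content hypothesis; `A` contains
a primitive `ℓ`-th root of unity). -/
theorem mem_gaussRingA_of_qExpand_mem {ζA : Aˣ} (hζ : IsPrimitiveRoot ζA ℓ) {Y : LaurentSeries L}
    (hY : qExpand L ℓ Y ∈ gaussRingA A π) : Y ∈ gaussRingA A π := by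
  classical
  obtain ⟨a, b, hb, hab⟩ := hY
  set P : LaurentSeries A := ∏ c ∈ Finset.range ℓ, scale (ζA ^ c) b with hP
  set b' : LaurentSeries A := ∏ c ∈ Finset.range (ℓ - 1), scale (ζA ^ (c + 1)) b with hb'
  have hPb : P = b * b' := by
    rw [hP, prod_range_eq_mul (fun c => scale (ζA ^ c) b) (NeZero.ne ℓ), pow_zero,
      scale_one_apply]
  set B₀ : LaurentSeries A := Uop ℓ P with hB₀
  have hPB : P = qExpand A ℓ B₀ :=
    eq_qExpand_Uop_of_scale_eq hζ (scale_prod_scale hζ.pow_eq_one b)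
  -- the new numerator
  have hkey : aIota A (a * b') = qExpand L ℓ (Y * aIota A B₀) := by
    rw [map_mul, map_mul, ← hab, ← Fermat.Agent.BR.ResGen.aIota_qExpand, ← hPB, hPb, map_mul]
    ring
  set a₀ : LaurentSeries A := Uop ℓ (a * b') with ha₀
  have ha : a * b' = qExpand A ℓ a₀ := by
    ext n
    by_cases hn : (ℓ : ℤ) ∣ n
    · obtain ⟨j, rfl⟩ := hn
      rw [qExpand_coeff_mul, Uop_coeff]
    · rw [qExpand_coeff_of_not_dvd ℓ _ hn]
      have h1 := congrArg (fun s : LaurentSeries L => s.coeff n) hkey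
      simp only [aIota_coeff, qExpand_coeff_of_not_dvd ℓ _ hn] at h1
      exact h1
  refine ⟨a₀, B₀, ?_, ?_⟩
  · intro h0
    have h1 : aRed π P = 0 := by
      rw [hPB, Fermat.Agent.BR.ResGen.aRed_qExpand, h0, map_zero]
    rw [hP, map_prod] at h1
    rcases Finset.prod_eq_zero_iff.mp h1 with ⟨c, -, hc⟩
    rw [Fermat.Agent.BR3.MidBeta.aRed_scale] at hc
    exact hb (scale_injective _ (hc.trans (map_zero _).symm))
  · apply qExpand_injective (R := L) ℓ
    rw [← hkey, ha, Fermat.Agent.BR.ResGen.aIota_qExpand]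

end Descent

/-! ### `U_ℓ` and `T_ℓ` on the Gauss ring -/

section UT

variable {L : Type*} [Field L] (A : ValuationSubring L) {k : Type*} [Field k] (π : A →+* k)
variable {ℓ : ℕ} [NeZero ℓ]

/-- the residue only depends on the underlying series -/
theorem gaussResA_congr' {x y : LaurentSeries L} (hx : x ∈ gaussRingA A π)
    (hy : y ∈ gaussRingA A π) (h : x = y) :
    gaussResA A π ⟨x, hx⟩ = gaussResA A π ⟨y, hy⟩ := by
  subst h
  rfl

/-- the constant `n` as an element of the Gauss ring, with its residue -/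
theorem natCast_mem_gaussRingA_and_res (n : ℕ) :
    ∃ h : (HahnSeries.C (n : L) : LaurentSeries L) ∈ gaussRingA A π,
      gaussResA A π ⟨HahnSeries.C (n : L), h⟩ = HahnSeries.C (n : k) := by
  obtain ⟨h, hres⟩ := gaussResA_C A π (n : A)
  have h0 : (((n : A) : A) : L) = (n : L) := by simp
  have h1 : (HahnSeries.C (((n : A) : A) : L) : LaurentSeries L) = HahnSeries.C (n : L) := by
    rw [h0]
  have hmem : (HahnSeries.C (n : L) : LaurentSeries L) ∈ gaussRingA A π := by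
    rw [← h1]
    exact h
  refine ⟨hmem, ?_⟩
  rw [← map_natCast π n, ← hres]
  exact gaussResA_congr' A π _ _ h1.symm

variable {A π} in
theorem sum_scale_mem_gaussRingA (ζA : Aˣ) {y : LaurentSeries L} (hy : y ∈ gaussRingA A π) :
    ∑ b ∈ Finset.range ℓ, scale ((Units.map (A.subtype : A →* L) ζA) ^ b) y ∈ gaussRingA A π := by
  refine (gaussRingA A π).sum_mem fun b _ => ?_
  have h := Fermat.Agent.BR3.MidBeta.scale_mem_gaussRingA A π (ζA ^ b) hy
  rwa [map_pow] at h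

variable {A π} in
theorem qExpand_Uop_mem_gaussRingA {ζA : Aˣ} (hζ : IsPrimitiveRoot ζA ℓ) (hℓk : (ℓ : k) ≠ 0)
    {y : LaurentSeries L} (hy : y ∈ gaussRingA A π) :
    qExpand L ℓ (Uop ℓ y) ∈ gaussRingA A π := by
  have hζL : IsPrimitiveRoot (Units.map (A.subtype : A →* L) ζA) ℓ :=
    hζ.map_of_injective (Units.map_injective Subtype.val_injective)
  obtain ⟨hC, hCres⟩ := natCast_mem_gaussRingA_and_res A π ℓ
  have hCne : gaussResA A π ⟨HahnSeries.C (ℓ : L), hC⟩ ≠ 0 := by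
    rw [hCres]
    exact C_ne_zero_of_ne_zero hℓk
  have hinv := inv_mem_gaussRingA_of_gaussResA_ne_zero A π ⟨HahnSeries.C (ℓ : L), hC⟩ hCne
  have hC0 : (HahnSeries.C (ℓ : L) : LaurentSeries L) ≠ 0 := by
    intro h0
    apply hCne
    have : (⟨HahnSeries.C (ℓ : L), hC⟩ : gaussRingA A π) = 0 := Subtype.ext h0
    rw [this, map_zero]
  have h1 : qExpand L ℓ (Uop ℓ y) = (HahnSeries.C (ℓ : L) : LaurentSeries L)⁻¹ *
      ∑ b ∈ Finset.range ℓ, scale ((Units.map (A.subtype : A →* L) ζA) ^ b) y := by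
    rw [sum_scale_eq hζL y, ← HahnSeries.C_mul_eq_smul, inv_mul_cancel_left₀ hC0]
  rw [h1]
  exact (gaussRingA A π).mul_mem hinv (sum_scale_mem_gaussRingA ζA hy)

variable {A π} in
/-- **`U_ℓ` preserves the Gauss ring** (`ℓ ≠ 0` in `k`). -/
theorem Uop_mem_gaussRingA {ζA : Aˣ} (hζ : IsPrimitiveRoot ζA ℓ) (hℓk : (ℓ : k) ≠ 0)
    {y : LaurentSeries L} (hy : y ∈ gaussRingA A π) : Uop ℓ y ∈ gaussRingA A π :=
  mem_gaussRingA_of_qExpand_mem A π hζ (qExpand_Uop_mem_gaussRingA hζ hℓk hy)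

variable {A π} in
/-- **`U_ℓ` commutes with the Gauss residue.** -/
theorem gaussResA_Uop {ζA : Aˣ} (hζ : IsPrimitiveRoot ζA ℓ)
    (hζk : IsPrimitiveRoot (Units.map (π : A →* k) ζA) ℓ) (hℓk : (ℓ : k) ≠ 0)
    {y : LaurentSeries L} (hy : y ∈ gaussRingA A π) :
    gaussResA A π ⟨Uop ℓ y, Uop_mem_gaussRingA hζ hℓk hy⟩ =
      Uop ℓ (gaussResA A π ⟨y, hy⟩) := by
  classical
  have hζL : IsPrimitiveRoot (Units.map (A.subtype : A →* L) ζA) ℓ :=
    hζ.map_of_injective (Units.map_injective Subtype.val_injective)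
  obtain ⟨hC, hCres⟩ := natCast_mem_gaussRingA_and_res A π ℓ
  have hU := Uop_mem_gaussRingA hζ hℓk hy
  have hS : ∀ b : ℕ, scale ((Units.map (A.subtype : A →* L) ζA) ^ b) y ∈ gaussRingA A π := by
    intro b
    have h := Fermat.Agent.BR3.MidBeta.scale_mem_gaussRingA A π (ζA ^ b) hy
    rwa [map_pow] at h
  have hresS : ∀ b : ℕ,
      gaussResA A π ⟨scale ((Units.map (A.subtype : A →* L) ζA) ^ b) y, hS b⟩ =
        scale ((Units.map (π : A →* k) ζA) ^ b) (gaussResA A π ⟨y, hy⟩) := by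
    intro b
    have h := Fermat.Agent.BR3.MidBeta.gaussResA_scale A π (ζA ^ b) hy
    have h2 : Units.map (π : A →* k) (ζA ^ b) = (Units.map (π : A →* k) ζA) ^ b := map_pow _ _ _
    rw [← h2, ← h]
    apply gaussResA_congr'
    rw [map_pow]
  -- the identity `ℓ · (U y)(q^ℓ) = ∑_b y(ζ^b q)` in the Gauss ring
  have hE : (⟨HahnSeries.C (ℓ : L), hC⟩ : gaussRingA A π) *
      ⟨qExpand L ℓ (Uop ℓ y), Fermat.Agent.BR.ResGen.qExpand_mem_gaussRingA ℓ hU⟩ =
      ∑ b ∈ Finset.range ℓ,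
        (⟨scale ((Units.map (A.subtype : A →* L) ζA) ^ b) y, hS b⟩ : gaussRingA A π) := by
    apply Subtype.ext
    rw [Subring.coe_mul, AddSubmonoidClass.coe_finsetSum]
    show HahnSeries.C (ℓ : L) * qExpand L ℓ (Uop ℓ y) = _
    rw [sum_scale_eq hζL y, HahnSeries.C_mul_eq_smul]
  have hres := congrArg (gaussResA A π) hE
  rw [map_mul, map_sum, hCres, Fermat.Agent.BR.ResGen.gaussResA_qExpand ℓ hU] at hres
  simp_rw [hresS] at hres
  rw [sum_scale_eq hζk, ← HahnSeries.C_mul_eq_smul] at hres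
  have hC0 : (HahnSeries.C (ℓ : k) : LaurentSeries k) ≠ 0 := C_ne_zero_of_ne_zero hℓk
  exact qExpand_injective (R := k) ℓ (mul_left_cancel₀ hC0 hres)

variable {A π} in
/-- **`T_ℓ = U_ℓ + ℓ V_ℓ` preserves the Gauss ring.** -/
theorem T2_mem_gaussRingA {ζA : Aˣ} (hζ : IsPrimitiveRoot ζA ℓ) (hℓk : (ℓ : k) ≠ 0)
    {y : LaurentSeries L} (hy : y ∈ gaussRingA A π) : T2 ℓ y ∈ gaussRingA A π := by
  obtain ⟨hC, -⟩ := natCast_mem_gaussRingA_and_res A π ℓ
  unfold T2
  rw [← HahnSeries.C_mul_eq_smul]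
  exact (gaussRingA A π).add_mem (Uop_mem_gaussRingA hζ hℓk hy)
    ((gaussRingA A π).mul_mem hC (Fermat.Agent.BR.ResGen.qExpand_mem_gaussRingA ℓ hy))

variable {A π} in
/-- **`T_ℓ = U_ℓ + ℓ V_ℓ` commutes with the Gauss residue.** -/
theorem gaussResA_T2 {ζA : Aˣ} (hζ : IsPrimitiveRoot ζA ℓ)
    (hζk : IsPrimitiveRoot (Units.map (π : A →* k) ζA) ℓ) (hℓk : (ℓ : k) ≠ 0)
    {y : LaurentSeries L} (hy : y ∈ gaussRingA A π) :
    gaussResA A π ⟨T2 ℓ y, T2_mem_gaussRingA hζ hℓk hy⟩ = T2 ℓ (gaussResA A π ⟨y, hy⟩) := by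
  obtain ⟨hC, hCres⟩ := natCast_mem_gaussRingA_and_res A π ℓ
  have hE : (⟨T2 ℓ y, T2_mem_gaussRingA hζ hℓk hy⟩ : gaussRingA A π) =
      ⟨Uop ℓ y, Uop_mem_gaussRingA hζ hℓk hy⟩ +
        ⟨HahnSeries.C (ℓ : L), hC⟩ *
          ⟨qExpand L ℓ y, Fermat.Agent.BR.ResGen.qExpand_mem_gaussRingA ℓ hy⟩ := by
    apply Subtype.ext
    rw [Subring.coe_add, Subring.coe_mul]
    show T2 ℓ y = Uop ℓ y + HahnSeries.C (ℓ : L) * qExpand L ℓ y
    rw [HahnSeries.C_mul_eq_smul]
    rfl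
  rw [hE, map_add, map_mul, hCres, gaussResA_Uop hζ hζk hℓk hy,
    Fermat.Agent.BR.ResGen.gaussResA_qExpand ℓ hy, HahnSeries.C_mul_eq_smul]
  rfl

end UT

/-! ### The coefficient formula of `T_ℓ` in `if … then … else` form -/

section Coeff

variable {R : Type*} [CommRing R]

/-- The coefficient formula of `T2 ℓ` in the form of the K8 contract (`heckeL`). -/
theorem T2_coeff_ite (ℓ : ℕ) [NeZero ℓ] (y : LaurentSeries R) (n : ℤ) :
    (T2 ℓ y).coeff n =
      y.coeff ((ℓ : ℤ) * n) + if (ℓ : ℤ) ∣ n then (ℓ : R) * y.coeff (n / (ℓ : ℤ)) else 0 := by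
  have hℓ : (ℓ : ℤ) ≠ 0 := by exact_mod_cast NeZero.ne ℓ
  split_ifs with h
  · obtain ⟨j, rfl⟩ := h
    rw [T2_coeff_mul, Int.mul_ediv_cancel_left _ hℓ]
  · rw [T2_coeff_of_not_dvd ℓ y h, add_zero]

/-- Any operator with the coefficient formula of the K8 contract is `T2 ℓ`. -/
theorem eq_T2_of_coeff (ℓ : ℕ) [NeZero ℓ] (y z : LaurentSeries R)
    (h : ∀ n : ℤ, z.coeff n =
      y.coeff ((ℓ : ℤ) * n) + if (ℓ : ℤ) ∣ n then (ℓ : R) * y.coeff (n / (ℓ : ℤ)) else 0) :
    z = T2 ℓ y := by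
  ext n
  rw [h n, T2_coeff_ite]

/-- Any family of `ℤ`-linear operators with the coefficient formula of the K8 contract evaluates on
noncommutative polynomials as `liftT2`. -/
theorem lift_eq_liftT2_of_coeff {ι : Type*} (e : ι → Nat.Primes)
    (F : ι → Module.End ℤ (LaurentSeries R))
    (h : ∀ (i : ι) (y : LaurentSeries R) (n : ℤ), (F i y).coeff n =
      y.coeff (((e i : ℕ) : ℤ) * n) +
        if ((e i : ℕ) : ℤ) ∣ n then ((e i : ℕ) : R) * y.coeff (n / ((e i : ℕ) : ℤ)) else 0) :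
    FreeAlgebra.lift ℤ F = liftT2 (R := R) e := by
  unfold liftT2
  congr 1
  funext i
  apply LinearMap.ext
  intro y
  haveI : NeZero ((e i : Nat.Primes) : ℕ) := ⟨(e i).2.ne_zero⟩
  rw [T2fam_apply]
  exact eq_T2_of_coeff _ y _ (h i y)

end Coeff

/-! ### Polynomials in the `T_ℓ` on the Gauss ring of `ℚ̄((q))`, and the end game -/

section Qbar

open Fermat.Agent.X0

variable (A : ValuationSubring Kb)

/-- For a prime `ℓ` different from the residue characteristic there is `ζ ∈ Aˣ`, a primitive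
`ℓ`-th root of unity in `A` and in the residue field. -/
theorem exists_primitiveRoot_unit {ℓ : ℕ} [NeZero ℓ] (hℓ : ℓ.Prime)
    (hℓk : (ℓ : IsLocalRing.ResidueField A) ≠ 0) :
    ∃ ζA : Aˣ, IsPrimitiveRoot ζA ℓ ∧
      IsPrimitiveRoot
        (Units.map (IsLocalRing.residue A : A →* IsLocalRing.ResidueField A) ζA) ℓ := by
  obtain ⟨ζ0, hζ0⟩ := HasEnoughRootsOfUnity.exists_primitiveRoot Kb ℓ
  refine ⟨unitOfPowEqOne A hℓ.ne_zero hζ0.pow_eq_one, ?_, isPrimitiveRoot_residue hℓ A hℓk hζ0⟩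
  have h1 : IsPrimitiveRoot
      (Units.map (A.subtype : A →* Kb) (unitOfPowEqOne A hℓ.ne_zero hζ0.pow_eq_one)) ℓ := by
    rw [← IsPrimitiveRoot.coe_units_iff]
    exact hζ0
  exact h1.of_map_of_injective (Units.map_injective Subtype.val_injective)

variable {ι : Type*} (e : ι → Nat.Primes)

/-- **(QH) on the Gauss ring, polynomial form**: polynomials in the formal Hecke operators `T_ℓ`,
`ℓ` prime different from the residue characteristic, preserve the Gauss ring of `ℚ̄((q))` and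
commute with the Gauss residue. -/
theorem gaussResA_liftT2 (he : ∀ i, (((e i : Nat.Primes) : ℕ) : IsLocalRing.ResidueField A) ≠ 0)
    (t : FreeAlgebra ℤ ι) {y : LaurentSeries Kb}
    (hy : y ∈ gaussRingA A (IsLocalRing.residue A)) :
    ∃ h : liftT2 e t y ∈ gaussRingA A (IsLocalRing.residue A),
      gaussResA A (IsLocalRing.residue A) ⟨liftT2 e t y, h⟩ =
        liftT2 e t (gaussResA A (IsLocalRing.residue A) ⟨y, hy⟩) := by
  induction t using FreeAlgebra.induction generalizing y with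
  | grade0 n =>
    have h1 : liftT2 (R := Kb) e (algebraMap ℤ (FreeAlgebra ℤ ι) n) y = n • y := by
      rw [AlgHom.commutes, Module.algebraMap_end_apply]
    have hmem : n • y ∈ gaussRingA A (IsLocalRing.residue A) := (gaussRingA A (IsLocalRing.residue A)).zsmul_mem hy n
    refine ⟨h1 ▸ hmem, ?_⟩
    have h2 : (⟨n • y, hmem⟩ : gaussRingA A (IsLocalRing.residue A)) = n • ⟨y, hy⟩ := Subtype.ext rfl
    rw [gaussResA_congr' A (IsLocalRing.residue A) (h1 ▸ hmem) hmem h1, h2, map_zsmul, AlgHom.commutes,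
      Module.algebraMap_end_apply]
  | grade1 i =>
    haveI : NeZero ((e i : Nat.Primes) : ℕ) := ⟨(e i).2.ne_zero⟩
    obtain ⟨ζA, hζ, hζk⟩ := exists_primitiveRoot_unit A (e i).2 (he i)
    have h1 : liftT2 (R := Kb) e (FreeAlgebra.ι ℤ i) y = T2 ((e i : Nat.Primes) : ℕ) y := by
      rw [liftT2_ι, T2fam_apply]
    have hmem := T2_mem_gaussRingA (π := IsLocalRing.residue A) hζ (he i) hy
    refine ⟨h1 ▸ hmem, ?_⟩
    rw [gaussResA_congr' A (IsLocalRing.residue A) (h1 ▸ hmem) hmem h1, gaussResA_T2 hζ hζk (he i) hy, liftT2_ι,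
      T2fam_apply]
  | mul a b ha hb =>
    obtain ⟨hbm, hbres⟩ := hb hy
    obtain ⟨ham, hares⟩ := ha hbm
    have h1 : liftT2 (R := Kb) e (a * b) y = liftT2 e a (liftT2 e b y) := by
      rw [map_mul, Module.End.mul_apply]
    refine ⟨h1 ▸ ham, ?_⟩
    rw [gaussResA_congr' A (IsLocalRing.residue A) (h1 ▸ ham) ham h1, hares, hbres, map_mul, Module.End.mul_apply]
  | add a b ha hb =>
    obtain ⟨ham, hares⟩ := ha hy
    obtain ⟨hbm, hbres⟩ := hb hy
    have h1 : liftT2 (R := Kb) e (a + b) y = liftT2 e a y + liftT2 e b y := by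
      rw [map_add, LinearMap.add_apply]
    have hmem := (gaussRingA A (IsLocalRing.residue A)).add_mem ham hbm
    refine ⟨h1 ▸ hmem, ?_⟩
    have h2 : (⟨liftT2 e a y + liftT2 e b y, hmem⟩ : gaussRingA A (IsLocalRing.residue A)) =
        ⟨liftT2 e a y, ham⟩ + ⟨liftT2 e b y, hbm⟩ := Subtype.ext rfl
    rw [gaussResA_congr' A (IsLocalRing.residue A) (h1 ▸ hmem) hmem h1, h2, map_add, hares, hbres, map_add,
      LinearMap.add_apply]

/-- **K8q (c), Laurent form**: a polynomial in the `T_ℓ` which kills a Gauss-integral series of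
`ℚ̄((q))` kills its Gauss residue. -/
theorem liftT2_gaussResA_eq_zero
    (he : ∀ i, (((e i : Nat.Primes) : ℕ) : IsLocalRing.ResidueField A) ≠ 0)
    (t : FreeAlgebra ℤ ι) {y : LaurentSeries Kb}
    (hy : y ∈ gaussRingA A (IsLocalRing.residue A)) (ht : liftT2 e t y = 0) :
    liftT2 e t (gaussResA A (IsLocalRing.residue A) ⟨y, hy⟩) = 0 := by
  obtain ⟨h, hres⟩ := gaussResA_liftT2 A e he t hy
  rw [← hres]
  have h0 : (⟨liftT2 e t y, h⟩ : gaussRingA A (IsLocalRing.residue A)) = 0 := Subtype.ext ht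
  rw [h0, map_zero]

/-- **End game in q-series form, on the Gauss ring.** If a Gauss-integral series `y ∈ ℚ̄((q))` is
killed by the polynomial `t` in the `T_ℓ`, and its Gauss residue `b ≠ 0` is an eigen-series of
all the `T_{e i}` with eigenvalues `a i`, then the character of `b` kills `t`. -/
theorem lift_eq_zero_of_eigen_of_gaussRes
    (he : ∀ i, (((e i : Nat.Primes) : ℕ) : IsLocalRing.ResidueField A) ≠ 0)
    {y : LaurentSeries Kb} (hy : y ∈ gaussRingA A (IsLocalRing.residue A))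
    (a : ι → IsLocalRing.ResidueField A)
    (hne : gaussResA A (IsLocalRing.residue A) ⟨y, hy⟩ ≠ 0)
    (heig : ∀ i, (haveI : NeZero ((e i : Nat.Primes) : ℕ) := ⟨(e i).2.ne_zero⟩;
      T2 ((e i : Nat.Primes) : ℕ) (gaussResA A (IsLocalRing.residue A) ⟨y, hy⟩)) =
        a i • gaussResA A (IsLocalRing.residue A) ⟨y, hy⟩)
    (t : FreeAlgebra ℤ ι) (ht : liftT2 e t y = 0) :
    FreeAlgebra.lift ℤ a t = 0 := by
  have h1 := liftT2_gaussResA_eq_zero A e he t hy ht
  rw [liftT2_eigen e a _ heig t] at h1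
  rcases smul_eq_zero.mp h1 with h | h
  · exact h
  · exact absurd h hne

end Qbar

end Fermat.Agent.FF4.K8Series
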